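import Fermat.Agent.EllTate.Module
import Fermat.Agent.EllReduction.Api
import Fermat.Agent.EllTorsion.Card
import Fermat.Agent.EllTorsion.FiniteLevel
import Fermat.Prelude.Def_GaloisRep_Adic

/-!
# The Tate module of an integral Weierstrass curve as a `GaloisRepAdic`
-/

set_option autoImplicit false

open scoped Classical
open WeierstrassCurve
open scoped WeierstrassCurve.Affine

noncomputable section

namespace FLTA.EllTate

open FLTA.EllReduction

local notation "Qbar" => AlgebraicClosure ℚ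
local notation "Γ" => AlgebraicClosure ℚ ≃ₐ[ℚ] AlgebraicClosure ℚ

attribute [local instance 10000] AlgebraicClosure.instAlgebra

variable (W : WeierstrassCurve ℤ) (hΔ : W.Δ ≠ 0) (p : ℕ) [Fact p.Prime]

include hΔ in
lemma exists_nsmul_prime_eq (y : GeomPoint W) : ∃ x, p • x = y := by
  have : ((W.map (Int.castRingHom ℚ))⁄Qbar).IsElliptic := by
    refine ⟨isUnit_iff_ne_zero.2 ?_⟩
    simp [WeierstrassCurve.baseChange, WeierstrassCurve.map_Δ, hΔ]
  exact FLTA.EllTorsion.exists_nsmul_eq ((W.map (Int.castRingHom ℚ))⁄Qbar)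
    (n := p) (Nat.cast_ne_zero.mpr (Fact.out : p.Prime).ne_zero) y

include hΔ in
lemma natCard_pow_torsion (n : ℕ) :
    Nat.card {x : GeomPoint W // p ^ n • x = 0} = (p ^ n) ^ 2 := by
  rw [← FLTA.EllTorsion.natCard_torsionBy_intModel W hΔ
    (pow_ne_zero n (Fact.out : p.Prime).ne_zero)]
  exact Nat.card_congr (Equiv.subtypeEquivRight fun x => by
    rw [Submodule.mem_torsionBy_iff, natCast_zsmul])

/-- The Galois action on points as additive endomorphisms. -/
def pointEnd (σ : Γ) : GeomPoint W →+ GeomPoint W :=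
  DistribSMul.toAddMonoidHom (GeomPoint W) σ

/-- The Galois action on the Tate module. -/
def tateAction : Γ →* Module.End ℤ_[p] (TateSeq (GeomPoint W) p) where
  toFun σ := TateSeq.mapEnd (pointEnd W σ)
  map_one' := LinearMap.ext fun f => TateSeq.ext' fun n => one_smul Γ (TateSeq.comp n f)
  map_mul' σ τ := LinearMap.ext fun f => TateSeq.ext' fun n => mul_smul σ τ (TateSeq.comp n f)

@[simp] lemma comp_tateAction (σ : Γ) (f : TateSeq (GeomPoint W) p) (n : ℕ) :
    TateSeq.comp n (tateAction W p σ f) = σ • TateSeq.comp n f := rfl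

lemma maximalIdeal_pow (n : ℕ) :
    IsLocalRing.maximalIdeal ℤ_[p] ^ n = Ideal.span {(p : ℤ_[p]) ^ n} := by
  rw [PadicInt.maximalIdeal_eq_span_p, Ideal.span_singleton_pow]

variable {W p}

include hΔ in
lemma tateSeq_free : Module.Free ℤ_[p] (TateSeq (GeomPoint W) p) :=
  let ⟨e⟩ := nonempty_linearEquiv (exists_nsmul_prime_eq W hΔ p) (natCard_pow_torsion W hΔ p)
  Module.Free.of_equiv e

include hΔ in
lemma tateSeq_finite : Module.Finite ℤ_[p] (TateSeq (GeomPoint W) p) :=
  let ⟨e⟩ := nonempty_linearEquiv (exists_nsmul_prime_eq W hΔ p) (natCard_pow_torsion W hΔ p)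
  Module.Finite.equiv e

include hΔ in
lemma tateSeq_finrank : Module.finrank ℤ_[p] (TateSeq (GeomPoint W) p) = 2 := by
  obtain ⟨e⟩ := nonempty_linearEquiv (exists_nsmul_prime_eq W hΔ p) (natCard_pow_torsion W hΔ p)
  rw [← e.finrank_eq, Module.finrank_fin_fun]

include hΔ in
lemma tateAction_continuous :
    GaloisActionIsAdicContinuous ℤ_[p] (tateAction W p) := by
  intro n
  obtain ⟨L, hL, h⟩ := FLTA.EllTorsion.galoisFactorsThroughFiniteLevel_intModel W hΔ
    (pow_ne_zero n (Fact.out : p.Prime).ne_zero)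
  refine ⟨L, hL, fun σ hσ f => ?_⟩
  rw [maximalIdeal_pow]
  refine TateSeq.mem_of_comp_eq_zero ?_
  rw [map_sub]
  exact sub_eq_zero.mpr (congrArg Subtype.val (LinearMap.congr_fun (h σ hσ)
    ⟨TateSeq.comp n f, (natCast_zsmul _ _).trans (TateSeq.pow_nsmul_comp f n)⟩))

variable (W p)

/-- The `p`-adic Tate module of `W`. -/
def tateRep : GaloisRepAdic ℤ_[p] where
  V := TateSeq (GeomPoint W) p
  instFree := tateSeq_free hΔ
  instFinite := tateSeq_finite hΔ
  finrank_eq := tateSeq_finrank hΔ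
  ρ := tateAction W p
  isAdicContinuous := tateAction_continuous hΔ

variable {W p} {hΔ}

/-- Two Galois elements acting alike on all `p`-power torsion act alike on the Tate module. -/
lemma tateAction_eq {σ τ : Γ}
    (h : ∀ (n : ℕ) (P : GeomPoint W), p ^ n • P = 0 → σ • P = τ • P) :
    tateAction W p σ = tateAction W p τ :=
  LinearMap.ext fun f => TateSeq.ext' fun n => h n _ (TateSeq.pow_nsmul_comp f n)

/-- Good reduction away from `p`: the Tate module is unramified. -/
theorem isUnramifiedAt_of_good {q : ℕ} (hq : q.Prime) (hqp : q ≠ p) (hgood : ¬ (q : ℤ) ∣ W.Δ) :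
    (tateRep W hΔ p).IsUnramifiedAt q := fun P hP σ hσ =>
  (tateAction_eq fun n x hx => (smul_eq_of_good hq hP hgood
    (fun h => hqp ((Nat.prime_dvd_prime_iff_eq hq Fact.out).mp (hq.dvd_of_dvd_pow h))) hσ hx).trans
      (one_smul Γ x).symm).trans (map_one _)

/-- At semistable primes away from `p` inertia acts unipotently. -/
theorem tateAction_sub_one_sq (hΔ : W.Δ ≠ 0) {q : ℕ} (hq : q.Prime) (hqp : q ≠ p)
    (hss : ¬ (q : ℤ) ∣ W.Δ ∨ ¬ (q : ℤ) ∣ W.c₄) {A : ValuationSubring Qbar}
    (hA : A.LiesOverPrime q) {σ : Γ} (hσ : σ ∈ A.inertiaSubgroupIn ℚ) :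
    (tateAction W p σ - 1) * (tateAction W p σ - 1) = 0 := by
  refine LinearMap.ext fun f => TateSeq.ext' fun n => ?_
  have h := smul_smul_sub_eq hq hA hss hΔ
    (fun h => hqp ((Nat.prime_dvd_prime_iff_eq hq Fact.out).mp (hq.dvd_of_dvd_pow h))) hσ hσ
    (TateSeq.pow_nsmul_comp (p := p) f n)
  simp only [Module.End.mul_apply, LinearMap.sub_apply, Module.End.one_apply, map_sub,
    comp_tateAction, LinearMap.zero_apply, map_zero]
  rw [smul_sub] at h
  rw [h, sub_self]

end FLTA.EllTate
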