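import Fermat.Agent.EllTate.Linear
import Fermat.Agent.EllTorsion.FrobQuadratic
import Fermat.Agent.Density.Frobenius
import Fermat.Agent.Galois.Cyclotomic
import Fermat.Prelude.Def_GaloisRep_LocalConditions
import Fermat.Prelude.Def_FLTPrelim_ModularRep

/-!
# Determinant and trace of the Tate module

Without a Weil pairing: at a Frobenius whose action is not scalar modulo `p` the quadratic relation
pins down determinant and trace; the elements which are not scalar modulo `p` generate.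
-/

set_option autoImplicit false

open scoped Classical
open WeierstrassCurve
open scoped WeierstrassCurve.Affine

noncomputable section

namespace FLTA.EllTate

open FLTA.EllReduction Matrix

local notation "Qbar" => AlgebraicClosure ℚ
local notation "Γ" => AlgebraicClosure ℚ ≃ₐ[ℚ] AlgebraicClosure ℚ

attribute [local instance 10000] AlgebraicClosure.instAlgebra

/-- The cyclotomic character modulo `N`. -/
def cyclo (N : ℕ) [NeZero N] : Γ →* ZMod N :=
  (Units.coeHom (ZMod N)).comp ((modularCyclotomicCharacter Qbar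
    (IsAlgClosed.card_rootsOfUnity_eq Qbar N)).comp (MulSemiringAction.toRingAut Γ Qbar))

lemma cyclo_eq {N : ℕ} [NeZero N] {σ : Γ} {a : ℕ} (h : ∀ μ : Qbar, μ ^ N = 1 → σ μ = μ ^ a) :
    cyclo N σ = (a : ZMod N) := by
  refine (modularCyclotomicCharacter.unique Qbar _
    (MulSemiringAction.toRingAut Γ Qbar σ) fun t ht => ?_).symm
  have h1 : (t : Qbar) ^ N = 1 := by rw [← Units.val_pow_eq_pow_val, ht, Units.val_one]
  rw [ZMod.val_natCast, ← pow_eq_pow_mod a h1]
  exact h _ h1

lemma cyclo_finiteLevel (N : ℕ) [NeZero N] : GaloisFactorsThroughFiniteLevel (cyclo N) := by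
  obtain ⟨ζ, hζ⟩ := HasEnoughRootsOfUnity.exists_primitiveRoot Qbar N
  refine ⟨IntermediateField.adjoin ℚ {ζ}, IntermediateField.adjoin.finiteDimensional
    ((AlgebraicClosure.isAlgebraic ℚ).isAlgebraic ζ).isIntegral, fun g hg => ?_⟩
  refine (cyclo_eq (a := 1) fun μ hμ => ?_).trans Nat.cast_one
  obtain ⟨i, -, rfl⟩ := hζ.eq_pow_of_pow_eq_one hμ
  exact ((map_pow g ζ i).trans (congrArg (· ^ i)
    (hg ζ (IntermediateField.mem_adjoin_simple_self ℚ ζ)))).trans (pow_one _).symm

variable {W : WeierstrassCurve ℤ} {hΔ : W.Δ ≠ 0} {p : ℕ} [Fact p.Prime]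

/-- Reduction modulo `p` factors through reduction modulo `p ^ n`. -/
lemma toZModPow_cast_toZMod {n : ℕ} (hn : n ≠ 0) (x : ℤ_[p]) :
    ZMod.castHom (dvd_pow_self p hn) (ZMod p) (PadicInt.toZModPow n x) = PadicInt.toZMod x := by
  have hker : x - ((PadicInt.toZModPow n x).val : ℕ) ∈ IsLocalRing.maximalIdeal ℤ_[p] := by
    rw [← Ideal.span_singleton_le_iff_mem]
    refine le_trans ?_ (Ideal.pow_le_self (I := IsLocalRing.maximalIdeal ℤ_[p]) hn)
    rw [Ideal.span_singleton_le_iff_mem, maximalIdeal_pow, ← PadicInt.ker_toZModPow,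
      RingHom.mem_ker, map_sub, map_natCast, natCast_val_toZModPow, sub_self]
  rw [← PadicInt.ker_toZMod, RingHom.mem_ker, map_sub, map_natCast, sub_eq_zero] at hker
  rw [hker, ZMod.castHom_apply]
  have := neZero_pow (p := p) n
  exact (ZMod.natCast_val _).symm

/-- Congruence of `ρ σ` to a scalar modulo `p`. -/
lemma smul_eq_of_toZMod_eq {σ : Γ} {k : ℕ}
    (h : (tateMat W hΔ p σ).map PadicInt.toZMod = (k : ZMod p) • 1) {P : GeomPoint W}
    (hP : p • P = 0) : σ • P = k • P := by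
  obtain ⟨f, hf⟩ := exists_seq (exists_nsmul_prime_eq W hΔ p) hP
  have hle : LinearMap.range ((tateRep W hΔ p).ρ σ - (k : ℤ_[p]) • 1) ≤
      Ideal.span {(p : ℤ_[p]) ^ 1} • (⊤ : Submodule ℤ_[p] (tateRep W hΔ p).V) := by
    rw [LinearMap.range_eq_map, ← (tateBasis W hΔ p).span_eq, Submodule.map_span_le]
    rintro _ ⟨j, rfl⟩
    rw [← (tateBasis W hΔ p).sum_repr (((tateRep W hΔ p).ρ σ - (k : ℤ_[p]) • 1) _)]
    refine Submodule.sum_mem _ fun i _ => Submodule.smul_mem_smul ?_
      (Submodule.subset_span ⟨i, rfl⟩)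
    rw [pow_one, ← PadicInt.maximalIdeal_eq_span_p, ← PadicInt.ker_toZMod, RingHom.mem_ker]
    have h1 := congrFun (congrFun h i) j
    simp only [LinearMap.sub_apply, LinearMap.smul_apply, Module.End.one_apply, map_sub, map_smul,
      Finsupp.sub_apply, Finsupp.smul_apply, Module.Basis.repr_self, Finsupp.single_apply,
      smul_eq_mul, map_mul, map_natCast]
    rw [show (tateBasis W hΔ p).repr ((tateRep W hΔ p).ρ σ (tateBasis W hΔ p j)) i =
      tateMat W hΔ p σ i j from (LinearMap.toMatrix_apply _ _ _ _ _).symm]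
    simp only [Matrix.map_apply, Matrix.smul_apply, Matrix.one_apply, smul_eq_mul] at h1
    rw [h1]
    by_cases hij : i = j
    · subst hij; simp
    · simp [hij, Ne.symm hij]
  have h2 := TateSeq.comp_eq_zero_of_mem (hle ⟨f, rfl⟩)
  rw [← hf, ← sub_eq_zero, ← comp_tateAction, ← TateSeq.comp_natCast_smul, ← map_sub]
  exact h2

variable (hirr : W.ModRepIsIrreducible p)

include hirr in
/-- An irreducible mod `p` representation has an element which is not scalar. -/
lemma exists_not_scalar :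
    ∃ σ : Γ, ∀ c : ZMod p, (tateMat W hΔ p σ).map PadicInt.toZMod ≠ c • 1 := by
  have hp : p.Prime := Fact.out
  by_contra hcon
  push Not at hcon
  obtain ⟨hnt, hall⟩ := hirr
  obtain ⟨x, hx⟩ := @exists_ne _ hnt (0 : Submodule.torsionBy ℤ (GeomPoint W) (p : ℤ))
  rcases hall (Submodule.span (ZMod p) {x}) (fun σ y hy => by
      obtain ⟨c, hc⟩ := hcon σ
      have hσy : σ • y = c.val • y := Subtype.ext (by
        rw [← ZMod.natCast_zmod_val c] at hc
        exact smul_eq_of_toZMod_eq hc ((natCast_zsmul _ _).symm.trans y.2))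
      rw [hσy]
      exact nsmul_mem hy _) with h | h
  · exact hx (Submodule.span_singleton_eq_bot.mp h)
  · have hsurj : Function.Surjective fun c : ZMod p => c • x := fun y =>
      Submodule.mem_span_singleton.mp (h ▸ Submodule.mem_top)
    have h1 := Nat.card_le_card_of_surjective _ hsurj
    rw [Nat.card_zmod] at h1
    have h2 : p ^ 2 ≤ p :=
      (FLTA.EllTorsion.natCard_torsionBy_intModel W hΔ hp.ne_zero).symm.trans_le h1
    nlinarith [hp.two_le]

/-- The Frobenius relation on matrices. -/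
lemma tateMat_frobenius (hp2 : p ≠ 2) {ℓ : ℕ} (hℓ : ℓ.Prime) (hℓ2 : ℓ ≠ 2) (hℓp : ℓ ≠ p)
    (hgood : W.IsGoodPrimeFor ℓ) {A : ValuationSubring Qbar} (hA : A.LiesOverPrime ℓ) {σ : Γ}
    (hσ : A.IsFrobeniusAt σ ℓ) :
    tateMat W hΔ p σ * tateMat W hΔ p σ - ((W.apOfModel ℓ : ℤ) : ℤ_[p]) • tateMat W hΔ p σ +
      ((ℓ : ℤ) : ℤ_[p]) • 1 = 0 :=
  tateMat_quadratic fun n P hP => by
    rw [natCast_zsmul]
    exact FLTA.EllTorsion.frobenius_quadratic W hΔ hℓ hℓ2 hgood hA hσ
      (((Fact.out : p.Prime).odd_of_ne_two hp2).pow)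
      (fun h => hℓp ((Nat.prime_dvd_prime_iff_eq hℓ Fact.out).mp (hℓ.dvd_of_dvd_pow h))) P hP

include hirr in
/-- The determinant modulo `p ^ n` is the cyclotomic character. -/
theorem toZModPow_det (hp2 : p ≠ 2) {n : ℕ} (hn : n ≠ 0) (σ : Γ) :
    PadicInt.toZModPow n (tateMat W hΔ p σ).det =
      @cyclo (p ^ n) (neZero_pow n) σ := by
  have hp : p.Prime := Fact.out
  haveI := neZero_pow (p := p) n
  let M : Γ →* Matrix (Fin 2) (Fin 2) (ZMod (p ^ n)) :=
    (PadicInt.toZModPow n).mapMatrix.toMonoidHom.comp (tateMat W hΔ p)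
  let π : ZMod (p ^ n) →+* ZMod p := ZMod.castHom (dvd_pow_self p hn) _
  have hMp : ∀ τ, π.mapMatrix (M τ) = (tateMat W hΔ p τ).map PadicInt.toZMod := fun τ => by
    ext i j
    exact toZModPow_cast_toZMod hn _
  have hM : GaloisFactorsThroughFiniteLevel M := by
    obtain ⟨L, hL, h1⟩ := (tateRep W hΔ p).isAdicContinuous n
    refine ⟨L, hL, fun τ hτ => ?_⟩
    ext i j
    have h2 := h1 τ hτ (tateBasis W hΔ p j)
    rw [maximalIdeal_pow] at h2
    have h3 : (tateBasis W hΔ p).repr ((tateRep W hΔ p).ρ τ (tateBasis W hΔ p j) -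
        tateBasis W hΔ p j) i ∈ Ideal.span {(p : ℤ_[p]) ^ n} := by
      refine Submodule.smul_induction_on (p := fun v => (tateBasis W hΔ p).repr v i ∈ _) h2
        (fun r hr v _ => by simpa using Ideal.mul_mem_right _ _ hr) fun u v hu hv => by
          simpa using add_mem hu hv
    rw [← PadicInt.ker_toZModPow, RingHom.mem_ker, map_sub, Finsupp.sub_apply, map_sub,
      sub_eq_zero, Module.Basis.repr_self, Finsupp.single_apply] at h3
    show PadicInt.toZModPow n (tateMat W hΔ p τ i j) = _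
    rw [show tateMat W hΔ p τ i j = (tateBasis W hΔ p).repr
      ((tateRep W hΔ p).ρ τ (tateBasis W hΔ p j)) i from LinearMap.toMatrix_apply _ _ _ _ _, h3]
    by_cases hij : i = j
    · subst hij; simp
    · simp [hij, Ne.symm hij]
  let P : Matrix (Fin 2) (Fin 2) (ZMod (p ^ n)) × ZMod (p ^ n) → Prop := fun w =>
    w.1.det = w.2 ∨ ∃ c : ZMod p, π.mapMatrix w.1 = c • 1
  have key : ∀ τ : Γ, P (M τ, cyclo (p ^ n) τ) := fun τ => by
    refine Density.forall_of_frobenius (M.prod (cyclo (p ^ n)))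
      (Density.galoisFactorsThroughFiniteLevel_prod hM (cyclo_finiteLevel _))
      ({2, p} ∪ W.Δ.natAbs.primeFactors) P ?_ ?_ τ
    · rintro ⟨w, z⟩ k (h | ⟨c, hc⟩)
      · exact .inl (by show (w ^ k).det = z ^ k; rw [det_pow, h])
      · exact .inr ⟨c ^ k, by
          show π.mapMatrix (w ^ k) = _
          rw [map_pow, hc, smul_pow, one_pow]⟩
    · intro ℓ hℓ hℓS A hA φ hφ
      simp only [Finset.mem_union, Finset.mem_insert, Finset.mem_singleton, Nat.mem_primeFactors,
        not_or] at hℓS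
      have hgood : W.IsGoodPrimeFor ℓ := fun h => hℓS.2 ⟨hℓ, Int.natCast_dvd.mp h, by simpa using hΔ⟩
      rcases trace_det_of_quadratic
          (tateMat_frobenius (hΔ := hΔ) hp2 hℓ hℓS.1.1 hℓS.1.2 hgood hA hφ) with ⟨-, hd⟩ | ⟨c, hc, -⟩
      · refine .inl ?_
        show (M φ).det = cyclo (p ^ n) φ
        rw [cyclo_eq (a := ℓ) fun μ hμ => FLTA.Galois.frobenius_apply_rootOfUnity hℓ hA hφ
          (fun h => hℓS.1.2 ((Nat.prime_dvd_prime_iff_eq hℓ hp).mp (hℓ.dvd_of_dvd_pow h))) hμ]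
        show ((PadicInt.toZModPow n).mapMatrix (tateMat W hΔ p φ)).det = _
        rw [← RingHom.map_det, hd, Int.cast_natCast, map_natCast]
      · refine .inr ⟨PadicInt.toZMod c, ?_⟩
        refine (hMp φ).trans ?_
        rw [hc]
        ext i j
        by_cases hij : i = j
        · subst hij; simp
        · simp [hij]
  suffices h : (M σ).det = cyclo (p ^ n) σ by
    rw [← h]
    exact RingHom.map_det _ _
  rcases key σ with h | ⟨c, hc⟩
  · exact h
  · obtain ⟨τ, hτ⟩ := exists_not_scalar (hΔ := hΔ) hirr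
    have hτ' : (M τ).det = cyclo (p ^ n) τ :=
      (key τ).resolve_right fun ⟨d, hd⟩ => hτ d ((hMp τ).symm.trans hd)
    have hστ : (M (σ * τ)).det = cyclo (p ^ n) (σ * τ) :=
      (key (σ * τ)).resolve_right fun ⟨d, hd⟩ => by
        rw [map_mul M, map_mul, hc, smul_mul_assoc, one_mul, hMp τ] at hd
        have hc0 : c ≠ 0 := fun h0 => by
          have hu : IsUnit (π.mapMatrix (M σ)) := (Group.isUnit σ).map (π.mapMatrix.toMonoidHom.comp M)
          rw [hc, h0, zero_smul] at hu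
          exact not_isUnit_zero hu
        refine hτ (c⁻¹ * d) ?_
        rw [mul_smul, ← hd, smul_smul, inv_mul_cancel₀ hc0, one_smul]
    rw [map_mul M, det_mul, map_mul (cyclo (p ^ n)), hτ'] at hστ
    exact ((Group.isUnit τ).map (cyclo (p ^ n))).mul_right_cancel hστ

include hirr in
/-- The determinant of the Tate module is the cyclotomic character. -/
theorem detIsCyclotomic (hp2 : p ≠ 2) : (tateRep W hΔ p).DetIsCyclotomic p := by
  refine ⟨PadicInt.p_nonunit (p := p), fun n σ a ha => ?_⟩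
  rw [Nat.cast_pow, ← PadicInt.ker_toZModPow, RingHom.mem_ker, map_sub, map_natCast, sub_eq_zero]
  refine (congrArg _ (det_eq_det_tateMat σ)).trans ?_
  rcases Nat.eq_zero_or_pos n with rfl | hn
  · exact Subsingleton.elim (α := ZMod 1) _ _
  · exact (toZModPow_det hirr hp2 hn.ne' σ).trans (@cyclo_eq _ (neZero_pow n) σ a ha)

include hirr in
/-- Trace and determinant at a good odd Frobenius. -/
theorem trace_det_frobenius (hp2 : p ≠ 2) {ℓ : ℕ} (hℓ : ℓ.Prime) (hℓ2 : ℓ ≠ 2) (hℓp : ℓ ≠ p)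
    (hgood : W.IsGoodPrimeFor ℓ) {A : ValuationSubring Qbar} (hA : A.LiesOverPrime ℓ) {σ : Γ}
    (hσ : A.IsFrobeniusAt σ ℓ) :
    (tateRep W hΔ p).trace σ = (W.apOfModel ℓ : ℤ_[p]) ∧
      LinearMap.det ((tateRep W hΔ p).ρ σ) = (ℓ : ℤ_[p]) := by
  have hdet : (tateMat W hΔ p σ).det = (ℓ : ℤ_[p]) := by
    refine PadicInt.ext_of_toZModPow.mp fun n => ?_
    rcases Nat.eq_zero_or_pos n with rfl | hn
    · exact Subsingleton.elim (α := ZMod 1) _ _
    · rw [toZModPow_det hirr hp2 hn.ne', map_natCast]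
      exact @cyclo_eq _ (neZero_pow n) σ ℓ fun μ hμ =>
        FLTA.Galois.frobenius_apply_rootOfUnity hℓ hA hσ
          (fun h => hℓp ((Nat.prime_dvd_prime_iff_eq hℓ Fact.out).mp (hℓ.dvd_of_dvd_pow h))) hμ
  refine ⟨?_, by rw [det_eq_det_tateMat]; exact hdet⟩
  rw [trace_eq_trace_tateMat]
  rcases trace_det_of_quadratic
      (tateMat_frobenius (hΔ := hΔ) hp2 hℓ hℓ2 hℓp hgood hA hσ) with ⟨h, -⟩ | ⟨c, hc, hc'⟩
  · exact h
  · have hc2 : c * c = (ℓ : ℤ_[p]) := by
      rw [← hdet, hc, det_smul, det_one, Fintype.card_fin, mul_one, sq]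
    have hc0 : c ≠ 0 := fun h => by
      rw [h, mul_zero] at hc2
      exact Nat.cast_ne_zero.mpr hℓ.ne_zero hc2.symm
    rw [hc, trace_smul, trace_one, Fintype.card_fin, smul_eq_mul]
    refine mul_left_cancel₀ hc0 ?_
    push_cast at hc' ⊢
    linear_combination hc' + hc2

end FLTA.EllTate
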