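import Mathlib

/-!
# Algebras of functions on a finite set with values in a local ring

A subalgebra containing a function contains its inverse where the values are units and the
indicators of its residue classes.
-/

set_option autoImplicit false

noncomputable section

namespace FLTA.EllTate.Flat

open IsLocalRing

variable {R : Type*} [CommRing R] [IsLocalRing R] {X : Type*} [Finite X]
  (B : Subalgebra R (X → R))

/-- The constant functions belong to every subalgebra. -/
lemma const_mem (r : R) : (fun _ => r : X → R) ∈ B := B.algebraMap_mem r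

/-- An element of the algebra inverting a member wherever it is a unit. -/
lemma exists_inv {f : X → R} (hf : f ∈ B) :
    ∃ g ∈ B, ∀ x, IsUnit (f x) → f x * g x = 1 := by
  classical
  have := Fintype.ofFinite X
  suffices H : ∀ S : Finset X, ∃ g ∈ B, ∀ x ∈ S, IsUnit (f x) → f x * g x = 1 by
    obtain ⟨g, hg, h⟩ := H Finset.univ
    exact ⟨g, hg, fun x => h x (Finset.mem_univ x)⟩
  intro S
  induction S using Finset.induction_on with
  | empty => exact ⟨0, B.zero_mem, by simp⟩
  | insert a S _ ih =>
    obtain ⟨g, hg, h⟩ := ih
    by_cases ha : IsUnit (f a)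
    · obtain ⟨u, hu⟩ := ha
      refine ⟨g + (fun _ => (↑u⁻¹ : R)) * (1 - f * g),
        B.add_mem hg (B.mul_mem (const_mem B _) (B.sub_mem B.one_mem (B.mul_mem hf hg))), ?_⟩
      intro x hx hxu
      simp only [Pi.add_apply, Pi.mul_apply, Pi.sub_apply, Pi.one_apply]
      rcases Finset.mem_insert.mp hx with rfl | hx
      · have : f x * (↑u⁻¹ : R) = 1 := by rw [← hu]; exact u.mul_inv
        linear_combination (1 - f x * g x) * this
      · linear_combination (1 - f x * (↑u⁻¹ : R)) * h x hx hxu
    · refine ⟨g, hg, fun x hx hxu => ?_⟩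
      rcases Finset.mem_insert.mp hx with rfl | hx
      · exact absurd hxu ha
      · exact h x hx hxu

/-- The indicator of a residue class of a member. -/
lemma exists_indicator [DecidableEq (ResidueField R)] {f : X → R} (hf : f ∈ B)
    (r : ResidueField R) :
    ∃ e ∈ B, ∀ x, e x = if residue R (f x) = r then 1 else 0 := by
  classical
  have := Fintype.ofFinite X
  let S := Finset.univ.filter fun x : X => residue R (f x) ≠ r
  let P : X → R := ∏ y ∈ S, (f - fun _ => f y)
  have hP : P ∈ B := B.prod_mem fun y _ => B.sub_mem hf (const_mem B _)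
  obtain ⟨g, hg, h⟩ := exists_inv B hP
  refine ⟨P * g, B.mul_mem hP hg, fun x => ?_⟩
  rw [Pi.mul_apply]
  split_ifs with hx
  · refine h x ?_
    rw [show P x = ∏ y ∈ S, (f x - f y) by simp [P]]
    refine IsUnit.prod_iff.mpr fun y hy => ?_
    rw [← residue_ne_zero_iff_isUnit, map_sub, hx, sub_ne_zero]
    exact fun h' => (Finset.mem_filter.mp hy).2 h'.symm
  · have : P x = 0 := by
      rw [show P x = ∏ y ∈ S, (f x - f y) by simp [P]]
      exact Finset.prod_eq_zero (Finset.mem_filter.mpr ⟨Finset.mem_univ x, hx⟩) (sub_self _)
    rw [this, zero_mul]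

/-- The indicator of a joint residue class. -/
lemma exists_indicator_pi [DecidableEq (ResidueField R)] {ι : Type*} [Fintype ι] {f : ι → X → R}
    (hf : ∀ i, f i ∈ B) (r : ι → ResidueField R) :
    ∃ e ∈ B, ∀ x, e x = if (fun i => residue R (f i x)) = r then 1 else 0 := by
  classical
  choose e he hev using fun i => exists_indicator B (hf i) (r i)
  refine ⟨∏ i, e i, B.prod_mem fun i _ => he i, fun x => ?_⟩
  rw [Finset.prod_apply]
  split_ifs with hx
  · exact Finset.prod_eq_one fun i _ => by rw [hev, if_pos (congrFun hx i)]
  · obtain ⟨i, hi⟩ := Function.ne_iff.mp hx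
    exact Finset.prod_eq_zero (Finset.mem_univ i) (by rw [hev, if_neg hi])

/-- Gluing along the joint residue classes of finitely many members: if on every class some member
takes the wanted values, some member takes them everywhere. -/
lemma exists_glue [DecidableEq (ResidueField R)] {ι κ : Type*} [Fintype ι] {f : ι → X → R}
    (hf : ∀ i, f i ∈ B) (P : X → (κ → R) → Prop)
    (h : ∀ r : ι → ResidueField R, ∃ v : κ → X → R, (∀ k, v k ∈ B) ∧
      ∀ x, (fun i => residue R (f i x)) = r → P x fun k => v k x) :
    ∃ v : κ → X → R, (∀ k, v k ∈ B) ∧ ∀ x, P x fun k => v k x := by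
  classical
  have := Fintype.ofFinite X
  let c : X → ι → ResidueField R := fun x i => residue R (f i x)
  choose e he hev using exists_indicator_pi B hf
  choose v hv hvP using h
  refine ⟨fun k => ∑ r ∈ Finset.univ.image c, e r * v r k,
    fun k => B.sum_mem fun r _ => B.mul_mem (he r) (hv r k), fun x => ?_⟩
  have e1 : (fun k => (∑ r ∈ Finset.univ.image c, e r * v r k) x) = fun k => v (c x) k x := by
    funext k
    rw [Finset.sum_apply, Finset.sum_eq_single (c x)]
    · rw [Pi.mul_apply, hev, if_pos rfl, one_mul]
    · intro r _ hr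
      rw [Pi.mul_apply, hev, if_neg fun h' => hr h'.symm, zero_mul]
    · exact fun h' => absurd (Finset.mem_image_of_mem c (Finset.mem_univ x)) h'
  rw [e1]
  exact hvP (c x) x rfl

end FLTA.EllTate.Flat
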