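import Fermat.Agent.EllTate.FlatPoints
import Fermat.Agent.Grass.EquivFun
import Fermat.Agent.Galois.Places

/-!
# Normalised monomials and global integrality

The form `formL q` of degree `q ^ 2` has integral coefficients and does not vanish at nonzero
triples with coordinates fixed by `x ↦ x ^ q`.
-/

set_option autoImplicit false

open WeierstrassCurve IsLocalRing
open scoped WeierstrassCurve.Projective

noncomputable section

namespace FLTA.EllTate.Flat

section Form

variable {R : Type*} [CommRing R] (q : ℕ)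

/-- The binary form `a ^ q - a b ^ (q - 1) + b ^ q`. -/
def formN (a b : R) : R := a ^ q - a * b ^ (q - 1) + b ^ q

/-- The ternary form of degree `q ^ 2`. -/
def formL (c : Fin 3 → R) : R := formN q (formN q (c 0) (c 2)) (c 1 ^ q)

lemma map_formL {S : Type*} [CommRing S] (f : R →+* S) (c : Fin 3 → R) :
    f (formL q c) = formL q (f ∘ c) := by
  simp [formL, formN]

lemma formN_mul (hq : 1 ≤ q) (t a b : R) : formN q (t * a) (t * b) = t ^ q * formN q a b := by
  obtain ⟨k, rfl⟩ := Nat.exists_eq_add_of_le' hq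
  simp only [formN, Nat.add_sub_cancel, mul_pow]
  ring

lemma formL_smul (hq : 1 ≤ q) (t : R) (c : Fin 3 → R) :
    formL q (t • c) = t ^ (q * q) * formL q c := by
  simp only [formL, Pi.smul_apply, smul_eq_mul, formN_mul q hq, mul_pow]
  rw [pow_mul]

variable {q} in
lemma formN_fixed {F : Type*} [Field F] (hq : 2 ≤ q) {a b : F} (ha : a ^ q = a) (hb : b ^ q = b) :
    (formN q a b = 0 ↔ a = 0 ∧ b = 0) ∧ formN q a b ^ q = formN q a b := by
  rcases eq_or_ne b 0 with rfl | hb0
  · have e : formN q a (0 : F) = a := by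
      rw [formN, zero_pow (show q - 1 ≠ 0 by omega), zero_pow (show q ≠ 0 by omega), mul_zero,
        sub_zero, add_zero, ha]
    rw [e]
    exact ⟨⟨fun h => ⟨h, rfl⟩, fun h => h.1⟩, ha⟩
  · have h1 : b ^ (q - 1) = 1 := mul_right_cancel₀ hb0 (by
      rw [one_mul, ← pow_succ, show q - 1 + 1 = q by omega, hb])
    have e : formN q a b = b := by rw [formN, ha, h1, hb, mul_one, sub_self, zero_add]
    rw [e]
    exact ⟨⟨fun h => absurd h hb0, fun h => h.2⟩, hb⟩

variable {q} in
lemma formL_ne_zero {F : Type*} [Field F] (hq : 2 ≤ q) {c : Fin 3 → F} (hc : ∀ i, c i ^ q = c i)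
    (h0 : c ≠ 0) : formL q c ≠ 0 := by
  intro h
  have h1 := formN_fixed hq (hc 0) (hc 2)
  obtain ⟨h2, h3⟩ := ((formN_fixed hq h1.2 (by rw [hc 1, hc 1])).1).mp h
  obtain ⟨h4, h5⟩ := h1.1.mp h2
  rw [hc 1] at h3
  exact h0 (funext fun i => by fin_cases i <;> assumption)

/-- The monomial `c i * c j ^ (q ^ 2 - 1)` over the form. -/
def mono {F : Type*} [Field F] (i j : Fin 3) (c : Fin 3 → F) : F :=
  c i * c j ^ (q * q - 1) / formL q c

lemma mono_smul {F : Type*} [Field F] (hq : 1 ≤ q) (i j : Fin 3) {t : F} (ht : t ≠ 0)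
    (c : Fin 3 → F) : mono q i j (t • c) = mono q i j c := by
  have e : q * q - 1 + 1 = q * q := Nat.sub_add_cancel (Nat.one_le_iff_ne_zero.mpr
    (mul_ne_zero (by omega) (by omega)))
  simp only [mono, formL_smul q hq, Pi.smul_apply, smul_eq_mul, mul_pow]
  rw [show t * c i * (t ^ (q * q - 1) * c j ^ (q * q - 1)) =
    t ^ (q * q - 1 + 1) * (c i * c j ^ (q * q - 1)) by ring, e,
    mul_div_mul_left _ _ (pow_ne_zero _ ht)]

lemma map_mono {F G : Type*} [Field F] [Field G] (f : F →+* G) (i j : Fin 3) (c : Fin 3 → F) :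
    f (mono q i j c) = mono q i j (f ∘ c) := by
  simp [mono, map_formL]

end Form

section Rep

variable {L : Type} [Field L] [IsAlgClosed L] [DecidableEq L] {A : ValuationSubring L}
  {W₀ : WeierstrassCurve A}

/-- Representatives of one point differ by a unit. -/
lemma Rep.exists_unit (hW : IsUnit W₀.Δ) {P Q : Fin 3 → A}
    {S : (W₀.map A.subtype).toAffine.Point} (hP : Rep W₀ P S) (hQ : Rep W₀ Q S) :
    ∃ u : Aˣ, P = (u : A) • Q := by
  have := isElliptic_gen hW
  obtain ⟨u, hu⟩ := equiv_of_toAffine_eq _ hP.1 hQ.1 (hP.2.2.trans hQ.2.2.symm)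
  obtain ⟨i, hi⟩ := hP.exists_isUnit
  obtain ⟨j, hj⟩ := hQ.exists_isUnit
  have hi' : A.valuation (P i : L) = 1 := (A.valuation_eq_one_iff _).mp hi
  have hj' : A.valuation (Q j : L) = 1 := (A.valuation_eq_one_iff _).mp hj
  have hui : (u : L) * (Q i : L) = (P i : L) := congrFun hu i
  have huj : (u : L) * (Q j : L) = (P j : L) := congrFun hu j
  have hu1 : A.valuation (u : L) = 1 := by
    refine le_antisymm ?_ ?_
    · calc A.valuation (u : L) = A.valuation (u : L) * A.valuation (Q j : L) := by
            rw [hj', mul_one]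
        _ = A.valuation (P j : L) := by rw [← map_mul, huj]
        _ ≤ 1 := A.valuation_le_one _
    · rw [← hi', ← hui, map_mul]
      exact mul_le_of_le_one_right' (A.valuation_le_one _)
  have hu0 : IsUnit (⟨(u : L), A.mem_of_valuation_le_one _ hu1.le⟩ : A) :=
    (A.valuation_eq_one_iff _).mpr hu1
  exact ⟨hu0.unit, funext fun t => Subtype.ext (congrFun hu t).symm⟩

/-- Scaling a representative by a unit. -/
lemma Rep.smul {P : Fin 3 → A} {S : (W₀.map A.subtype).toAffine.Point} (hP : Rep W₀ P S) {u : A}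
    (hu : IsUnit u) : Rep W₀ (u • P) S := by
  refine ⟨?_, ?_, ?_⟩
  · rw [Projective.comp_smul]; exact (Projective.nonsingular_smul _ (hu.map _)).mpr hP.1
  · rw [Projective.comp_smul]; exact (Projective.nonsingular_smul _ (hu.map _)).mpr hP.2.1
  · rw [Projective.comp_smul, Projective.Point.toAffine_smul _ (hu.map _), hP.2.2]

/-- Coordinates of a point. -/
def coords {E : WeierstrassCurve.Affine L} : E.Point → Fin 3 → L
  | .zero => ![0, 1, 0]
  | .some x y _ => ![x, y, 1]

omit [IsAlgClosed L] [DecidableEq L] in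
/-- Transport of points along an equality of curves. -/
def castPt {E E' : WeierstrassCurve.Affine L} (h : E = E') [DecidableEq L] : E.Point ≃+ E'.Point :=
  h ▸ AddEquiv.refl E.Point

/-- A representative is a multiple of the coordinates. -/
lemma Rep.exists_coords (hW : IsUnit W₀.Δ) {E : WeierstrassCurve.Affine L}
    (h : (W₀.map A.subtype).toAffine = E) {P : Fin 3 → A}
    {S : (W₀.map A.subtype).toAffine.Point} (hP : Rep W₀ P S) :
    ∃ t : L, t ≠ 0 ∧ A.subtype ∘ P = t • coords (castPt h S) := by
  subst h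
  have := isElliptic_gen hW
  have hc : (W₀.map A.subtype).toProjective.Nonsingular (coords S) ∧
      Projective.Point.toAffine (W₀.map A.subtype).toProjective (coords S) = S := by
    cases S with
    | zero => exact ⟨Projective.nonsingular_zero, Projective.Point.toAffine_zero⟩
    | some x y h =>
      exact ⟨(Projective.nonsingular_some x y).mpr h,
        Projective.Point.toAffine_some ((Projective.nonsingular_some x y).mpr h)⟩
  obtain ⟨u, hu⟩ := equiv_of_toAffine_eq _ hP.1 hc.1 (hP.2.2.trans hc.2.symm)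
  exact ⟨(u : L), u.ne_zero, hu.symm⟩

end Rep

section Integrality

open FLTA.HeckeDatum FLTA.HeckeDatum.Flat

local notation "Qbar" => AlgebraicClosure ℚ

/-- An algebraic number lying in every place over `p` is integral over `ℤ₍p₎`. -/
lemma isIntegral_rp_of_forall {p : ℕ} (hp : p.Prime) {x : Qbar}
    (h : ∀ V : ValuationSubring Qbar, V.LiesOverPrime p → x ∈ V) : IsIntegral (Rp p) x := by
  let f : Rp p →+* Qbar := algebraMap (Rp p) Qbar
  have hx : x ∈ (integralClosure (Subring.closure (f.range : Set Qbar)) Qbar).toSubring := by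
    rw [← iInf_valuationSubring_superset, Subring.mem_iInf]
    rintro ⟨V, hV⟩
    by_cases htop : V = ⊤
    · show x ∈ V
      rw [htop]; exact ValuationSubring.mem_top x
    · obtain ⟨ℓ, hℓ, hVℓ⟩ := FLTA.Galois.exists_prime_liesOverPrime htop
      rcases eq_or_ne ℓ p with rfl | hne
      · exact h V hVℓ
      · exfalso
        have hinv : (((ℓ : ℚ))⁻¹) ∈ GaloisRep.ratLocalizedAt p := by
          show ((ℓ : ℚ)⁻¹).den.Coprime p
          rw [Rat.inv_natCast_den, if_neg hℓ.ne_zero]
          exact (Nat.coprime_primes hℓ hp).mpr hne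
        have hmem : (ℓ : Qbar)⁻¹ ∈ V.toSubring := hV ⟨⟨_, hinv⟩, by
          show algebraMap (Rp p) Qbar _ = _
          rw [FLTA.Grass.algebraMap_rp_apply, map_inv₀, map_natCast]⟩
        have h1 : V.valuation (ℓ : Qbar) < 1 := hVℓ
        have h2 : V.valuation ((ℓ : Qbar) * (ℓ : Qbar)⁻¹) < 1 := by
          rw [map_mul]
          exact mul_lt_one_of_lt_of_le h1 ((V.valuation_le_one_iff _).mpr hmem)
        rw [mul_inv_cancel₀ (Nat.cast_ne_zero.mpr hℓ.ne_zero), map_one] at h2
        exact lt_irrefl _ h2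
  rw [Subring.closure_eq] at hx
  let _ : Algebra (Rp p) f.range := f.rangeRestrict.toAlgebra
  have : IsScalarTower (Rp p) f.range Qbar := IsScalarTower.of_algebraMap_eq fun _ => rfl
  have : Algebra.IsIntegral (Rp p) f.range := ⟨fun y => by
    obtain ⟨r, rfl⟩ := f.rangeRestrict_surjective y
    exact isIntegral_algebraMap⟩
  exact isIntegral_trans x hx

end Integrality

end FLTA.EllTate.Flat
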