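import Fermat.Agent.EllTate.FlatForms
import Fermat.Agent.EllTate.Curve
import Fermat.Agent.EllReduction.IntModel
import Fermat.Agent.Grass.HopfOrder
import Fermat.Agent.HeckeDatum.FlatModelApply

/-!
# Flat models of the torsion of a curve with good reduction

The prime is arbitrary: two is allowed.
-/

set_option autoImplicit false

open scoped Classical
open WeierstrassCurve IsLocalRing
open scoped WeierstrassCurve.Affine WeierstrassCurve.Projective

noncomputable section

namespace FLTA.EllTate

open FLTA.EllReduction FLTA.HeckeDatum FLTA.EllTate.Flat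

local notation "Qbar" => AlgebraicClosure ℚ

attribute [local instance 10000] AlgebraicClosure.instAlgebra

variable (W : WeierstrassCurve ℤ)

lemma map_intModel_eq (A : ValuationSubring Qbar) :
    ((W.map (Int.castRingHom A)).map A.subtype).toAffine = geomCurve W := by
  rw [geomCurve_eq]
  show (W.map (Int.castRingHom A)).map A.subtype = _
  rw [WeierstrassCurve.map_map]
  congr 1

lemma coords_smul (σ : Qbar ≃ₐ[ℚ] Qbar) (P : GeomPoint W) :
    coords (σ • P) = σ ∘ coords P := by
  cases P with
  | zero =>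
    show (![0, 1, 0] : Fin 3 → Qbar) = _
    funext i
    fin_cases i <;> simp [coords]
  | some x y h =>
    rw [Affine.Point.algEquiv_smul_def, Affine.Point.map_some]
    funext i
    fin_cases i <;> simp [coords]

/-- Galois acting on the `n`-torsion. -/
def torsAct (n : ℕ) : GalQ →* AddMonoid.End (Submodule.torsionBy ℤ (GeomPoint W) (n : ℤ)) :=
  DistribMulAction.toAddMonoidEnd _ _

lemma torsAct_coe (n : ℕ) (σ : GalQ) (P : Submodule.torsionBy ℤ (GeomPoint W) (n : ℤ)) :
    ((torsAct W n σ P : Submodule.torsionBy ℤ (GeomPoint W) (n : ℤ)) : GeomPoint W) =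
      σ • (P : GeomPoint W) := rfl

variable {W}

/-- At a prime of good reduction the torsion of the curve has a flat model. -/
theorem hasFlatModel_torsion {p : ℕ} (hp : p.Prime) (hgood : ¬ (p : ℤ) ∣ W.Δ)
    {n : ℕ} (hn : n ≠ 0) :
    HasFlatModel p (Submodule.torsionBy ℤ (GeomPoint W) (n : ℤ)) (torsAct W n) := by
  have : Fact p.Prime := ⟨hp⟩
  have hΔ : W.Δ ≠ 0 := fun h => hgood (h ▸ dvd_zero _)
  obtain ⟨A, hA⟩ := FLTA.Galois.exists_liesOverPrime hp
  set W₀ := W.map (Int.castRingHom A) with hW₀
  have hW : IsUnit W₀.Δ := by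
    refine (A.valuation_eq_one_iff _).mpr ?_
    rw [hW₀, map_Δ]
    exact EllReduction.valuation_intCast_of_not_dvd hp hA hgood
  have hIAC : IsAlgClosed (ResidueField A) := FLTA.Galois.isAlgClosed_residueField A
  let E := map_intModel_eq W A
  let T := Submodule.torsionBy ℤ (GeomPoint W) (n : ℤ)
  have hTfin : Finite T := Nat.finite_of_card_ne_zero (by
    rw [show Nat.card T = n ^ 2 from FLTA.EllTorsion.natCard_torsionBy_intModel W hΔ hn]
    exact pow_ne_zero 2 hn)
  let pt : T → (W₀.map A.subtype).toAffine.Point := fun P => (castPt E).symm (P : GeomPoint W)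
  choose rep hrep using fun P : T => exists_rep hW (pt P)
  -- a power of `p` fixing all residual coordinate ratios
  obtain ⟨K, hK, hfix⟩ : ∃ K : ℕ, 0 < K ∧ ∀ (P : T) (i j : Fin 3),
      (residue A (rep P i) / residue A (rep P j)) ^ p ^ K =
        residue A (rep P i) / residue A (rep P j) := by
    have := Fintype.ofFinite T
    choose k hk hkx using fun z : T × Fin 3 × Fin 3 => FLTA.Galois.exists_pow_card_eq_self hp hA
      (residue A (rep z.1 z.2.1) / residue A (rep z.1 z.2.2))
    refine ⟨∏ z, k z, Finset.prod_pos fun z _ => hk z, fun P i j => ?_⟩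
    obtain ⟨c, hc⟩ := Finset.dvd_prod_of_mem k (Finset.mem_univ (P, i, j))
    rw [hc]
    have hx := hkx (P, i, j)
    clear hc
    induction c with
    | zero => simp
    | succ c ih => rw [Nat.mul_succ, pow_add, pow_mul, ih, hx]
  set q := p ^ K with hq
  have hq2 : 2 ≤ q := hp.two_le.trans (Nat.le_self_pow hK.ne' p)
  -- the form does not vanish at any residual representative
  have hunit : ∀ (P : T) (v : Fin 3 → A), Rep W₀ v (pt P) → IsUnit (formL q v) := by
    intro P v hv
    obtain ⟨u, rfl⟩ := Rep.exists_unit hW hv (hrep P)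
    rw [formL_smul q (by omega)]
    refine (u.isUnit.pow _).mul ((residue_ne_zero_iff_isUnit _).mp ?_)
    rw [map_formL]
    obtain ⟨j, hj⟩ := (hrep P).exists_isUnit
    have hj0 : residue A (rep P j) ≠ 0 := (residue_ne_zero_iff_isUnit _).mpr hj
    have e : residue A ∘ rep P =
        residue A (rep P j) • fun i => residue A (rep P i) / residue A (rep P j) := by
      funext i
      simp [mul_div_cancel₀ _ hj0]
    rw [e, formL_smul q (by omega)]
    refine mul_ne_zero (pow_ne_zero _ hj0) (formL_ne_zero hq2 (fun i => hfix P i j) fun h => ?_)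
    have := congrFun h j
    rw [div_self hj0] at this
    exact one_ne_zero this
  -- the normalised monomials
  let ψ : Fin 3 → Fin 3 → T → Qbar := fun i j P => mono q i j (coords (P : GeomPoint W))
  have hψ : ∀ (i j : Fin 3) (P : T) (v : Fin 3 → A), Rep W₀ v (pt P) →
      ψ i j P = mono q i j (A.subtype ∘ v) := by
    intro i j P v hv
    obtain ⟨t, ht, he⟩ := hv.exists_coords hW E
    have e' : castPt E (pt P) = (P : GeomPoint W) := (castPt E).apply_symm_apply _
    rw [e'] at he
    rw [he, mono_smul q (by omega) i j ht]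
  have hval : ∀ (i j : Fin 3) (P : T) (v : Fin 3 → A), Rep W₀ v (pt P) →
      ∀ g : A, formL q v * g = 1 → ψ i j P = ((v i * v j ^ (q * q - 1) * g : A) : Qbar) := by
    intro i j P v hv g hg
    have hg' : (formL q (A.subtype ∘ v)) * (g : Qbar) = 1 := by
      rw [← map_formL, ← map_one A.subtype, ← hg, map_mul]
      rfl
    rw [hψ i j P v hv, mono, div_eq_iff (left_ne_zero_of_mul_eq_one hg')]
    simp only [Function.comp_apply, ValuationSubring.subtype_apply, MulMemClass.coe_mul,
      SubmonoidClass.coe_pow]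
    linear_combination (-((v i : Qbar) * (v j : Qbar) ^ (q * q - 1))) * hg'
  have hψA : ∀ i j P, ψ i j P ∈ A := fun i j P => by
    obtain ⟨g, hg⟩ := (hunit P _ (hrep P)).exists_right_inv
    rw [hval i j P _ (hrep P) g hg]
    exact SetLike.coe_mem _
  let actT : GalQ →* Equiv.Perm T := MulAction.toPermHom GalQ T
  have hequiv : ∀ (i j : Fin 3) (σ : GalQ) (P : T), ψ i j (actT σ P) = σ (ψ i j P) := by
    intro i j σ P
    show mono q i j (coords (σ • (P : GeomPoint W))) = _
    exact (congrArg (mono q i j) (coords_smul W σ _)).trans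
      (map_mono q (σ : Qbar →+* Qbar) i j _).symm
  have hint : ∀ i j, ψ i j ∈ FLTA.Grass.intFun p actT := fun i j =>
    FLTA.Grass.mem_intFun.mpr ⟨hequiv i j, fun P => isIntegral_rp_of_forall hp fun V hV => by
      obtain ⟨g, rfl⟩ := FLTA.Galois.exists_smul_eq hp hA hV
      refine ValuationSubring.mem_pointwise_smul_iff_inv_smul_mem.mpr ?_
      rw [AlgEquiv.smul_def, ← hequiv]
      exact hψA i j _⟩
  have hsm : FLTA.Grass.IsSmoothAct actT := by
    obtain ⟨L, hL, h⟩ := FLTA.EllTorsion.galoisFactorsThroughFiniteLevel_intModel W hΔ hn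
    exact fun P => ⟨L, hL, fun σ hσ => LinearMap.congr_fun (h σ hσ) P⟩
  -- the separating functions
  let Φ : Set (T → A) := Set.range fun z : Fin 3 × Fin 3 => fun P => ⟨ψ z.1 z.2 P, hψA z.1 z.2 P⟩
  refine FLTA.Grass.hasFlatModel_of_bounded (ℓ := p) (torsAct W n) actT hsm id
    Function.surjective_id (fun σ P => rfl) A hA Φ ?_ ?_
  · intro P Q hPQ
    by_contra hcon
    push Not at hcon
    have hall : ∀ i j, ψ i j P = ψ i j Q := fun i j =>
      congrArg Subtype.val (hcon _ ⟨(i, j), rfl⟩)
    obtain ⟨j, hj⟩ := (hrep P).exists_isUnit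
    obtain ⟨g, hg⟩ := (hunit P _ (hrep P)).exists_right_inv
    obtain ⟨g', hg'⟩ := (hunit Q _ (hrep Q)).exists_right_inv
    have key : ∀ i, rep P i * rep P j ^ (q * q - 1) * g =
        rep Q i * rep Q j ^ (q * q - 1) * g' := fun i => Subtype.ext (by
      rw [← hval i j P _ (hrep P) g hg, ← hval i j Q _ (hrep Q) g' hg']
      exact hall i j)
    have hu : IsUnit (rep P j ^ (q * q - 1) * g) :=
      (hj.pow _).mul (IsUnit.of_mul_eq_one_right _ hg)
    obtain ⟨u, hu'⟩ := hu
    refine hPQ (Subtype.ext ((castPt E).symm.injective ?_))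
    show pt P = pt Q
    have e : rep P = (↑u⁻¹ * (rep Q j ^ (q * q - 1) * g') : A) • rep Q := by
      funext i
      have h1 := key i
      rw [mul_assoc, ← hu', mul_assoc] at h1
      rw [Pi.smul_apply, smul_eq_mul]
      calc rep P i = rep P i * (u : A) * ↑u⁻¹ := by rw [mul_assoc, u.mul_inv, mul_one]
        _ = _ := by rw [h1]; ring
    have hs : IsUnit (↑u⁻¹ * (rep Q j ^ (q * q - 1) * g') : A) := by
      obtain ⟨i, hi⟩ := (hrep P).exists_isUnit
      rw [congrFun e i, Pi.smul_apply, smul_eq_mul] at hi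
      exact isUnit_of_mul_isUnit_left hi
    rw [← (hrep P).2.2, e, ((hrep Q).smul hs).2.2]
  · intro m φ hφ
    obtain ⟨⟨i₀, j₀⟩, rfl⟩ := hφ
    set B := FLTA.Grass.powAdjoin p actT A m with hB
    have hgen : ∀ (k : Fin m) (i j : Fin 3),
        (fun w : Fin m → T => (⟨ψ i j (w k), hψA i j (w k)⟩ : A)) ∈ B := fun k i j =>
      Algebra.subset_adjoin ⟨k, ψ i j, hint i j, fun w => rfl⟩
    have hbase : ∀ k : Fin m, Good W₀ B fun w => pt (w k) := by
      intro k
      refine exists_glue (ι := Fin 3) B
        (f := fun j => fun w : Fin m → T => (⟨ψ j j (w k), hψA j j (w k)⟩ : A))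
        (fun j => hgen k j j) (fun w v => Rep W₀ v (pt (w k))) fun c => ?_
      by_cases hc : ∃ j, c j ≠ 0
      · obtain ⟨j, hj⟩ := hc
        refine ⟨fun i w => ⟨ψ i j (w k), hψA i j (w k)⟩, fun i => hgen k i j, fun w hw => ?_⟩
        obtain ⟨g, hg⟩ := (hunit _ _ (hrep (w k))).exists_right_inv
        have e : (fun i => (⟨ψ i j (w k), hψA i j (w k)⟩ : A)) =
            (rep (w k) j ^ (q * q - 1) * g) • rep (w k) := funext fun i => Subtype.ext <| by
          show ψ i j (w k) = _
          rw [hval i j _ _ (hrep (w k)) g hg, Pi.smul_apply, smul_eq_mul]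
          congr 1
          ring
        rw [e]
        refine (hrep (w k)).smul ?_
        have h1 : IsUnit (⟨ψ j j (w k), hψA j j (w k)⟩ : A) := by
          rw [← residue_ne_zero_iff_isUnit]
          exact (congrFun hw j).symm ▸ hj
        rw [congrFun e j, Pi.smul_apply, smul_eq_mul] at h1
        exact isUnit_of_mul_isUnit_left h1
      · push Not at hc
        refine ⟨fun _ => 0, fun _ => B.zero_mem, fun w hw => absurd ?_ (not_not.mpr hw)⟩
        intro hw'
        obtain ⟨j, hj⟩ := (hrep (w k)).exists_isUnit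
        obtain ⟨g, hg⟩ := (hunit _ _ (hrep (w k))).exists_right_inv
        have h1 : IsUnit (⟨ψ j j (w k), hψA j j (w k)⟩ : A) := by
          rw [show (⟨ψ j j (w k), hψA j j (w k)⟩ : A) =
            rep (w k) j * rep (w k) j ^ (q * q - 1) * g from
              Subtype.ext (hval j j _ _ (hrep (w k)) g hg)]
          exact (hj.mul (hj.pow _)).mul (IsUnit.of_mul_eq_one_right _ hg)
        exact (residue_ne_zero_iff_isUnit _).mpr h1 ((congrFun hw' j).trans (hc j))
    have hsum : ∀ s : Finset (Fin m), Good W₀ B fun w => pt (∑ k ∈ s, w k) := by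
      intro s
      induction s using Finset.induction_on with
      | empty =>
        convert good_const hW B (0 : (W₀.map A.subtype).toAffine.Point) using 2 with w
        rw [Finset.sum_empty]
        exact map_zero (castPt E).symm
      | insert a s has ih =>
        convert good_add hW B (hbase a) ih using 2 with w
        rw [Finset.sum_insert has]
        exact map_add (castPt E).symm _ _
    obtain ⟨v, hv, hvR⟩ := hsum Finset.univ
    let vB : Fin 3 → B := fun i => ⟨v i, hv i⟩
    obtain ⟨g, hg, hgv⟩ := exists_inv B (formL q vB).2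
    have he : ∀ w, ((formL q vB : B) : (Fin m → T) → A) w = formL q fun i => v i w := fun w =>
      map_formL q ((Pi.evalRingHom (fun _ : Fin m → T => A) w).comp B.val.toRingHom) vB
    have hmem : (v i₀ * v j₀ ^ (q * q - 1) * g) ∈ B :=
      B.mul_mem (B.mul_mem (hv i₀) (B.pow_mem (hv j₀) _)) hg
    convert hmem using 1
    funext w
    refine Subtype.ext ?_
    show ψ i₀ j₀ (∑ k, id (w k)) = _
    have hu : IsUnit (formL q fun i => v i w) := hunit _ _ (hvR w)
    refine hval i₀ j₀ _ _ (hvR w) (g w) ?_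
    have := hgv w (by rw [he]; exact hu)
    rwa [he] at this

variable {p : ℕ} [Fact p.Prime] {hΔ : W.Δ ≠ 0}

/-- The Tate module is flat at a prime of good reduction. -/
theorem isFlatAt_tateRep (hgood : ¬ (p : ℤ) ∣ W.Δ) :
    (tateRep W hΔ p).IsFlatAt p := by
  have hp : p.Prime := Fact.out
  refine ⟨Finite.of_equiv _ PadicInt.residueField.toEquiv.symm, fun I hI => ?_⟩
  have hI0 : I ≠ ⊥ := by
    rintro rfl
    have : Finite ℤ_[p] := Finite.of_equiv _ (RingEquiv.quotientBot ℤ_[p]).toEquiv
    exact not_finite ℤ_[p]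
  obtain ⟨k, rfl⟩ := PadicInt.ideal_eq_span_pow_p hI0
  let T := Submodule.torsionBy ℤ (GeomPoint W) ((p ^ k : ℕ) : ℤ)
  have hTfin : Finite T := Nat.finite_of_card_ne_zero (by
    rw [show Nat.card T = (p ^ k) ^ 2 from
      FLTA.EllTorsion.natCard_torsionBy_intModel W hΔ (pow_ne_zero k hp.ne_zero)]
    exact pow_ne_zero 2 (pow_ne_zero k hp.ne_zero))
  have := finite_level (tateRep W hΔ p) _ hI
  let f₀ : (tateRep W hΔ p).V →+ T :=
    { toFun := fun v => ⟨TateSeq.comp k v, (natCast_zsmul _ _).trans (TateSeq.pow_nsmul_comp v k)⟩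
      map_zero' := Subtype.ext (map_zero (TateSeq.comp k))
      map_add' := fun u v => Subtype.ext (map_add (TateSeq.comp k) u v) }
  let J : Submodule ℤ_[p] (tateRep W hΔ p).V := Ideal.span {(p : ℤ_[p]) ^ k} • ⊤
  let f : ((tateRep W hΔ p).V ⧸ J) →+ T := QuotientAddGroup.lift J.toAddSubgroup f₀
    fun v hv => Subtype.ext (TateSeq.comp_eq_zero_of_mem hv)
  refine ((hasFlatModel_torsion hp hgood (pow_ne_zero k hp.ne_zero)).of_injective hp f ?_ ?_
    (act' := levelHom (tateRep W hΔ p) _)).isHopfFlat hp
  · rw [injective_iff_map_eq_zero]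
    intro x hx
    obtain ⟨v, rfl⟩ := Submodule.Quotient.mk_surjective _ x
    exact (Submodule.Quotient.mk_eq_zero _).mpr
      (TateSeq.mem_of_comp_eq_zero (congrArg Subtype.val hx))
  · intro σ x
    obtain ⟨v, rfl⟩ := Submodule.Quotient.mk_surjective _ x
    rfl

end FLTA.EllTate
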