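import Fermat.Agent.EllTate.FlatAlgebra
import Fermat.Agent.EllTorsion.Card

/-!
# Point valued functions with integral projective representatives

For a curve with good reduction at a valuation ring `A` with algebraically closed fraction field of
arbitrary residue characteristic, the point valued functions on a finite set having a
primitive representative in a given algebra of `A`-valued functions are closed under addition:
one projective addition law suffices after translating by a constant.
-/

set_option autoImplicit false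

open WeierstrassCurve IsLocalRing
open scoped WeierstrassCurve.Projective

noncomputable section

namespace FLTA.EllTate.Flat

section Field

variable {F : Type*} [Field F] (W : WeierstrassCurve F) [W.IsElliptic]

/-- On an elliptic curve a nonzero solution is nonsingular. -/
lemma nonsingular_of_equation {P : Fin 3 → F} (hP : W.toProjective.Equation P) (h0 : P ≠ 0) :
    W.toProjective.Nonsingular P := by
  by_cases hz : P 2 = 0
  · have hx : P 0 = 0 := Projective.X_eq_zero_of_Z_eq_zero hP hz
    have hy : P 1 ≠ 0 := fun hy => h0 (funext fun i => by fin_cases i <;> assumption)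
    refine (Projective.nonsingular_of_Z_eq_zero hz).mpr ⟨hP, .inr ?_⟩
    rw [hx]
    simpa using hy
  · rw [Projective.nonsingular_of_Z_ne_zero hz]
    exact Affine.equation_iff_nonsingular.mp ((Projective.equation_of_Z_ne_zero hz).mp hP)

/-- Nonsingular representatives of one point are proportional. -/
lemma equiv_of_toAffine_eq {P Q : Fin 3 → F} (hP : W.toProjective.Nonsingular P)
    (hQ : W.toProjective.Nonsingular Q)
    (h : Projective.Point.toAffine W.toProjective P = Projective.Point.toAffine W.toProjective Q) :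
    ∃ u : Fˣ, u • Q = P := by
  classical
  have h1 : (⟨(Projective.nonsingularLift_iff P).mpr hP⟩ : W.toProjective.Point) =
      ⟨(Projective.nonsingularLift_iff Q).mpr hQ⟩ :=
    (Projective.Point.toAffineAddEquiv (W := W.toProjective)).injective h
  exact Quotient.exact (congrArg Projective.Point.point h1)

/-- An elliptic curve over an algebraically closed field of any characteristic has finitely many
points killed by two. -/
lemma finite_setOf_add_self_eq_zero [IsAlgClosed F] [DecidableEq F] :
    {r : W.toAffine.Point | r + r = 0}.Finite := by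
  by_cases h2 : (2 : F) = 0
  swap
  · have hfin := FLTA.EllTorsion.finite_torsionBy W (n := 2) (by exact_mod_cast h2)
    refine (Set.finite_range fun t : Submodule.torsionBy ℤ W.toAffine.Point ((2 : ℕ) : ℤ) =>
      t.1).subset fun r hr => ⟨⟨r, ?_⟩, rfl⟩
    rw [Submodule.mem_torsionBy_iff, natCast_zsmul, two_nsmul]
    exact hr
  have ha₁ : W.a₁ = 0 → W.a₃ ≠ 0 := by
    intro h1 h3
    refine W.isUnit_Δ.ne_zero ?_
    simp only [WeierstrassCurve.Δ, WeierstrassCurve.b₂, WeierstrassCurve.b₄, WeierstrassCurve.b₆,
      WeierstrassCurve.b₈, h1, h3]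
    linear_combination (-32 * W.a₂ ^ 2 * W.a₂ * W.a₆ + 8 * W.a₂ ^ 2 * W.a₄ ^ 2 - 32 * W.a₄ ^ 3
      - 216 * W.a₆ ^ 2 + 144 * W.a₂ * W.a₄ * W.a₆) * h2
  -- in characteristic two there is at most one point of order two
  have key : ∀ (x y : F) (h : W.toAffine.Nonsingular x y),
      Affine.Point.some x y h + Affine.Point.some x y h = 0 → W.a₁ * x + W.a₃ = 0 := by
    intro x y h hr
    have h' := eq_neg_of_add_eq_zero_left hr
    rw [Affine.Point.neg_some] at h'
    have hy := (Affine.Point.some.inj h').2
    rw [Affine.negY] at hy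
    linear_combination hy - y * h2
  have hsub : ({r : W.toAffine.Point | r + r = 0} \ {0}).Subsingleton := by
    rintro (_ | ⟨x, y, h⟩) ⟨hr, hr0⟩ (_ | ⟨x', y', h'⟩) ⟨hs, hs0⟩
    · exact absurd rfl hr0
    · exact absurd rfl hr0
    · exact absurd rfl hs0
    have e1 := key x y h hr
    have e2 := key x' y' h' hs
    have ha : W.a₁ ≠ 0 := fun h1 => ha₁ h1 (by linear_combination e1 - x * h1)
    obtain rfl : x = x' := mul_left_cancel₀ ha (by linear_combination e1 - e2)
    have q1 := (Affine.equation_iff x y).mp h.1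
    have q2 := (Affine.equation_iff x y').mp h'.1
    obtain rfl : y = y' := sub_eq_zero.mp <| pow_eq_zero_iff (two_ne_zero (α := ℕ)) |>.mp <| by
      linear_combination q1 - q2 - (y - y') * e1 + (y' ^ 2 - y * y') * h2
    rfl
  exact (hsub.finite.union (Set.finite_singleton 0)).subset fun r hr => by
    by_cases h0 : r = 0
    · exact Or.inr h0
    · exact Or.inl ⟨hr, h0⟩

end Field

variable {L : Type} [Field L] [IsAlgClosed L] [DecidableEq L] {A : ValuationSubring L}
  (W₀ : WeierstrassCurve A) (hW : IsUnit W₀.Δ)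

/-- `P` is a representative with nonsingular reduction of the point `S`. -/
def Rep (P : Fin 3 → A) (S : (W₀.map A.subtype).toAffine.Point) : Prop :=
  (W₀.map A.subtype).toProjective.Nonsingular (A.subtype ∘ P) ∧
    (W₀.map (residue A)).toProjective.Nonsingular (residue A ∘ P) ∧
    Projective.Point.toAffine (W₀.map A.subtype).toProjective (A.subtype ∘ P) = S

/-- The point to which a representative reduces. -/
def resPt (P : Fin 3 → A) : (W₀.map (residue A)).toAffine.Point :=
  Projective.Point.toAffine (W₀.map (residue A)).toProjective (residue A ∘ P)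

lemma resPt_congr {P Q : Fin 3 → A} (h : residue A ∘ P = residue A ∘ Q) :
    resPt W₀ P = resPt W₀ Q := by rw [resPt, resPt, h]

variable {W₀}

lemma Rep.exists_isUnit {P : Fin 3 → A} {S : (W₀.map A.subtype).toAffine.Point}
    (h : Rep W₀ P S) : ∃ i, IsUnit (P i) := by
  by_contra hcon
  push Not at hcon
  have h0 : residue A ∘ P = 0 := funext fun i => by
    by_contra hi
    exact hcon i ((residue_ne_zero_iff_isUnit _).mp hi)
  have := h.2.1
  rw [h0] at this
  exact ((Projective.nonsingular_iff _).mp this).2.elim (fun h => h (by simp))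
    fun h => h.elim (fun h => h (by simp)) fun h => h (by simp)

/-- Representatives reducing to different points add by the addition polynomials. -/
lemma Rep.addXYZ [DecidableEq (ResidueField A)] {P Q : Fin 3 → A}
    {S T : (W₀.map A.subtype).toAffine.Point} (hP : Rep W₀ P S) (hQ : Rep W₀ Q T)
    (hne : resPt W₀ P ≠ resPt W₀ Q) :
    Rep W₀ (W₀.toProjective.addXYZ P Q) (S + T) ∧
      resPt W₀ (W₀.toProjective.addXYZ P Q) = resPt W₀ P + resPt W₀ Q := by
  have hk : ¬ (residue A ∘ P) ≈ (residue A ∘ Q) :=
    fun h => hne (Projective.Point.toAffine_of_equiv h)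
  have hL : ¬ (A.subtype ∘ P) ≈ (A.subtype ∘ Q) := by
    intro h
    refine hk ?_
    obtain ⟨u, hu⟩ := h
    obtain ⟨i, hi⟩ := hP.exists_isUnit
    obtain ⟨j, hj⟩ := hQ.exists_isUnit
    have hi' : A.valuation (P i : L) = 1 := (A.valuation_eq_one_iff _).mp hi
    have hj' : A.valuation (Q j : L) = 1 := (A.valuation_eq_one_iff _).mp hj
    have hui : (u : L) * (Q i : L) = (P i : L) := congrFun hu i
    have huj : (u : L) * (Q j : L) = (P j : L) := congrFun hu j
    have hu1 : A.valuation (u : L) = 1 := by
      refine le_antisymm ?_ ?_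
      · calc A.valuation (u : L) = A.valuation (u : L) * A.valuation (Q j : L) := by
              rw [hj', mul_one]
          _ = A.valuation (P j : L) := by rw [← map_mul, huj]
          _ ≤ 1 := A.valuation_le_one _
      · rw [← hi', ← hui, map_mul]
        exact mul_le_of_le_one_right' (A.valuation_le_one _)
    have hu0 : IsUnit (⟨(u : L), A.mem_of_valuation_le_one _ hu1.le⟩ : A) :=
      (A.valuation_eq_one_iff _).mpr hu1
    have hPQ : P = (⟨(u : L), A.mem_of_valuation_le_one _ hu1.le⟩ : A) • Q :=
      funext fun t => Subtype.ext (congrFun hu t).symm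
    rw [hPQ, Projective.comp_smul]
    exact Projective.smul_equiv _ (hu0.map _)
  have e1 : A.subtype ∘ W₀.toProjective.addXYZ P Q =
      (W₀.map A.subtype).toProjective.add (A.subtype ∘ P) (A.subtype ∘ Q) := by
    rw [Projective.add_of_not_equiv hL, ← Projective.map_addXYZ]
  have e2 : residue A ∘ W₀.toProjective.addXYZ P Q =
      (W₀.map (residue A)).toProjective.add (residue A ∘ P) (residue A ∘ Q) := by
    rw [Projective.add_of_not_equiv hk, ← Projective.map_addXYZ]
  refine ⟨⟨?_, ?_, ?_⟩, ?_⟩
  · rw [e1]; exact Projective.nonsingular_add hP.1 hQ.1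
  · rw [e2]; exact Projective.nonsingular_add hP.2.1 hQ.2.1
  · rw [e1, Projective.Point.toAffine_add hP.1 hQ.1, hP.2.2, hQ.2.2]
  · rw [resPt, e2, Projective.Point.toAffine_add hP.2.1 hQ.2.1]
    rfl

include hW

lemma isElliptic_res : (W₀.map (residue A)).IsElliptic :=
  ⟨by rw [map_Δ]; exact hW.map _⟩

lemma isElliptic_gen : (W₀.map A.subtype).IsElliptic :=
  ⟨by rw [map_Δ]; exact hW.map _⟩

/-- A primitive solution over `A` represents a point. -/
lemma rep_of_equation {P : Fin 3 → A} (hP : W₀.toProjective.Equation P)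
    (hu : ∃ i, IsUnit (P i)) :
    Rep W₀ P (Projective.Point.toAffine (W₀.map A.subtype).toProjective (A.subtype ∘ P)) := by
  have := isElliptic_res hW
  have := isElliptic_gen hW
  obtain ⟨i, hi⟩ := hu
  exact ⟨nonsingular_of_equation _ (hP.map A.subtype)
      fun h => hi.ne_zero (Subtype.ext (congrFun h i)),
    nonsingular_of_equation _ (hP.map (residue A))
      fun h => (residue_ne_zero_iff_isUnit _).mpr hi (congrFun h i), rfl⟩

/-- Every point has a representative. -/
lemma exists_rep (S : (W₀.map A.subtype).toAffine.Point) : ∃ P, Rep W₀ P S := by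
  have := isElliptic_gen hW
  obtain ⟨c, hc, hcS⟩ : ∃ c : Fin 3 → L, (W₀.map A.subtype).toProjective.Nonsingular c ∧
      Projective.Point.toAffine (W₀.map A.subtype).toProjective c = S := by
    cases S with
    | zero => exact ⟨![0, 1, 0], Projective.nonsingular_zero, Projective.Point.toAffine_zero⟩
    | some x y h =>
      exact ⟨![x, y, 1], (Projective.nonsingular_some x y).mpr h,
        Projective.Point.toAffine_some ((Projective.nonsingular_some x y).mpr h)⟩
  obtain ⟨j, -, hj⟩ := Finset.exists_max_image (Finset.univ : Finset (Fin 3))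
    (fun i => A.valuation (c i)) Finset.univ_nonempty
  have hcj : c j ≠ 0 := by
    intro h0
    have hc0 : c = 0 := funext fun i => by
      have := hj i (Finset.mem_univ i)
      rw [h0, map_zero, le_zero_iff, Valuation.zero_iff] at this
      exact this
    rw [hc0] at hc
    exact ((Projective.nonsingular_iff _).mp hc).2.elim (fun h => h (by simp))
      fun h => h.elim (fun h => h (by simp)) fun h => h (by simp)
  have hmem : ∀ i, (c j)⁻¹ * c i ∈ A := fun i => A.mem_of_valuation_le_one _ (by
    rw [map_mul, map_inv₀, mul_comm, ← div_eq_mul_inv]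
    exact div_le_one_of_le₀ (hj i (Finset.mem_univ i)) zero_le)
  let P : Fin 3 → A := fun i => ⟨(c j)⁻¹ * c i, hmem i⟩
  have e : A.subtype ∘ P = (c j)⁻¹ • c := rfl
  have heq : W₀.toProjective.Equation P := by
    rw [← Projective.map_equation W₀.toProjective (f := A.subtype) Subtype.val_injective P, e]
    exact ((Projective.nonsingular_smul c (inv_ne_zero hcj).isUnit).mpr hc).1
  have hj1 : P j = 1 := Subtype.ext (inv_mul_cancel₀ hcj)
  refine ⟨P, ?_⟩
  rw [← hcS, ← Projective.Point.toAffine_smul c (inv_ne_zero hcj).isUnit, ← e]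
  exact rep_of_equation hW heq ⟨j, hj1 ▸ isUnit_one⟩

variable [IsAlgClosed (ResidueField A)]

/-- Every residual point lifts. -/
lemma exists_rep_resPt (r : (W₀.map (residue A)).toAffine.Point) :
    ∃ P S, Rep W₀ P S ∧ resPt W₀ P = r := by
  cases r with
  | zero =>
    refine ⟨![0, 1, 0], _, rep_of_equation hW Projective.equation_zero ⟨1, isUnit_one⟩, ?_⟩
    exact Projective.Point.toAffine_of_Z_eq_zero (map_zero _)
  | some xb yb h =>
    obtain ⟨x, rfl⟩ := residue_surjective xb
    set b : A := W₀.a₁ * x + W₀.a₃ with hb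
    set c : A := x ^ 3 + W₀.a₂ * x ^ 2 + W₀.a₄ * x + W₀.a₆ with hc
    obtain ⟨y, hy⟩ : ∃ y : L, y ^ 2 + (b : L) * y - (c : L) = 0 := by
      obtain ⟨y, hy⟩ := IsAlgClosed.exists_root
        (Polynomial.X ^ 2 + Polynomial.C (b : L) * Polynomial.X - Polynomial.C (c : L))
        (ne_of_eq_of_ne (b := (2 : WithBot ℕ)) (by compute_degree!) (by decide))
      exact ⟨y, by simpa using hy⟩
    have hyA : y ∈ A := by
      obtain ⟨z, hz⟩ := IsIntegrallyClosed.isIntegral_iff.mp
        (show IsIntegral A y from ⟨Polynomial.X ^ 2 + Polynomial.C b * Polynomial.X - Polynomial.C c,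
          by monicity!, by simpa using hy⟩)
      exact hz ▸ z.2
    set y₁ : A := ⟨y, hyA⟩
    set y₂ : A := -b - y₁
    have h1 : y₁ ^ 2 + b * y₁ - c = 0 := Subtype.ext hy
    have heq := h.1
    rw [Affine.equation_iff] at heq
    simp only [map_a₁, map_a₂, map_a₃, map_a₄, map_a₆] at heq
    have hroots : (yb - residue A y₁) * (yb - residue A y₂) = 0 := by
      have h2 : residue A y₁ ^ 2 + residue A b * residue A y₁ - residue A c = 0 := by
        rw [← map_pow, ← map_mul, ← map_add, ← map_sub, h1, map_zero]
      simp only [y₂, map_sub, map_neg]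
      simp only [hb, hc, map_add, map_mul, map_pow] at h2 ⊢
      linear_combination heq - h2
    obtain ⟨y₀, hy₀, hres⟩ : ∃ y₀ : A, y₀ ^ 2 + b * y₀ - c = 0 ∧ residue A y₀ = yb := by
      rcases mul_eq_zero.mp hroots with h' | h'
      · exact ⟨y₁, h1, (sub_eq_zero.mp h').symm⟩
      · exact ⟨y₂, by simp only [y₂]; linear_combination h1, (sub_eq_zero.mp h').symm⟩
    have heq' : W₀.toProjective.Equation ![x, y₀, 1] := by
      rw [Projective.equation_some, Affine.equation_iff]
      simp only [hb, hc] at hy₀
      linear_combination hy₀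
    refine ⟨![x, y₀, 1], _, rep_of_equation hW heq' ⟨2, isUnit_one⟩, ?_⟩
    have e : residue A ∘ ![x, y₀, 1] = ![residue A x, yb, 1] := by
      funext i; fin_cases i <;> simp [hres]
    rw [resPt, e]
    exact Projective.Point.toAffine_some ((Projective.nonsingular_some _ _).mpr h)

/-- A residual point off a finite set with double off a given point. -/
lemma exists_residual_point [DecidableEq (ResidueField A)]
    (d u v : (W₀.map (residue A)).toAffine.Point) :
    ∃ r, r ≠ u ∧ r ≠ v ∧ r + r ≠ d := by
  have := isElliptic_res hW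
  have hker : {r : (W₀.map (residue A)).toAffine.Point | r + r = d}.Finite := by
    by_cases hd : ∃ r₀ : (W₀.map (residue A)).toAffine.Point, r₀ + r₀ = d
    · obtain ⟨r₀, hr₀⟩ := hd
      refine ((finite_setOf_add_self_eq_zero (W₀.map (residue A))).image fun t => r₀ + t).subset
        fun r hr => ⟨r - r₀, ?_, add_sub_cancel r₀ r⟩
      show r - r₀ + (r - r₀) = 0
      rw [sub_add_sub_comm, show r + r = d from hr, hr₀, sub_self]
    · exact Set.finite_empty.subset fun r hr => hd ⟨r, hr⟩
  have hinf : Infinite (W₀.map (residue A)).toAffine.Point := by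
    have hy : ∀ x : ResidueField A, ∃ y, (W₀.map (residue A)).toAffine.Equation x y := by
      intro x
      set E := W₀.map (residue A)
      obtain ⟨y, hy⟩ := IsAlgClosed.exists_root
        (Polynomial.X ^ 2 + Polynomial.C (E.a₁ * x + E.a₃) * Polynomial.X -
          Polynomial.C (x ^ 3 + E.a₂ * x ^ 2 + E.a₄ * x + E.a₆)) (ne_of_eq_of_ne (b := (2 : WithBot ℕ)) (by compute_degree!) (by decide))
      refine ⟨y, ?_⟩
      rw [Affine.equation_iff]
      simp at hy
      linear_combination hy
    choose y hy using hy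
    exact Infinite.of_injective (fun x => Affine.Point.some x (y x)
      (Affine.equation_iff_nonsingular.mp (hy x))) fun x x' h => (Affine.Point.some.inj h).1
  obtain ⟨r, hr⟩ := (hker.union (Set.toFinite {u, v})).exists_notMem
  simp only [Set.mem_union, Set.mem_ofPred_eq, Set.mem_insert_iff, Set.mem_singleton_iff,
    not_or] at hr
  exact ⟨r, hr.2.1, hr.2.2, hr.1⟩

variable {X : Type*} [Finite X] (B : Subalgebra A (X → A))

omit hW [IsAlgClosed (ResidueField A)] in
variable (W₀) in
/-- Point valued functions with a representative in the algebra `B`. -/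
def Good (S : X → (W₀.map A.subtype).toAffine.Point) : Prop :=
  ∃ v : Fin 3 → X → A, (∀ i, v i ∈ B) ∧ ∀ t, Rep W₀ (fun i => v i t) (S t)

/-- Constant functions are good. -/
lemma good_const (S : (W₀.map A.subtype).toAffine.Point) : Good W₀ B fun _ => S := by
  obtain ⟨P, hP⟩ := exists_rep hW S
  exact ⟨fun i _ => P i, fun i => const_mem B _, fun _ => hP⟩

omit hW [IsAlgClosed (ResidueField A)] in
/-- The addition polynomials preserve a subalgebra. -/
lemma addXYZ_mem {v w : Fin 3 → X → A} (hv : ∀ i, v i ∈ B) (hw : ∀ i, w i ∈ B) (i : Fin 3) :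
    (fun t => W₀.toProjective.addXYZ (fun j => v j t) (fun j => w j t) i) ∈ B := by
  let v' : Fin 3 → B := fun j => ⟨v j, hv j⟩
  let w' : Fin 3 → B := fun j => ⟨w j, hw j⟩
  let ev : X → B →+* A := fun t =>
    (Pi.evalRingHom (fun _ : X => A) t).comp B.val.toRingHom
  have key : ∀ t, W₀.toProjective.addXYZ (fun j => v j t) (fun j => w j t) =
      ev t ∘ (W₀.map (algebraMap A B)).toProjective.addXYZ v' w' := by
    intro t
    rw [← Projective.map_addXYZ]
    have hmap : ((W₀.map (algebraMap A B)).toProjective.map (ev t)) = W₀.toProjective := by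
      show (W₀.map (algebraMap A B)).map (ev t) = W₀
      rw [WeierstrassCurve.map_map]
      exact WeierstrassCurve.map_id W₀
    rw [hmap]
    rfl
  have h := ((W₀.map (algebraMap A B)).toProjective.addXYZ v' w' i).2
  convert h using 1
  funext t
  rw [key t]
  rfl

/-- Good functions are closed under addition. -/
theorem good_add {S T : X → (W₀.map A.subtype).toAffine.Point}
    (hS : Good W₀ B S) (hT : Good W₀ B T) : Good W₀ B fun t => S t + T t := by
  classical
  obtain ⟨v, hv, hvS⟩ := hS
  obtain ⟨w, hw, hwT⟩ := hT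
  refine exists_glue (ι := Fin 3 ⊕ Fin 3) B (f := Sum.elim v w)
    (fun i => Sum.rec hv hw i) (fun t P => Rep W₀ P (S t + T t)) fun c => ?_
  by_cases hc : ∃ t₀, (fun i => residue A (Sum.elim v w i t₀)) = c
  swap
  · exact ⟨fun _ => 0, fun _ => B.zero_mem, fun t ht => absurd ⟨t, ht⟩ hc⟩
  obtain ⟨t₀, rfl⟩ := hc
  set s := resPt W₀ fun i => v i t₀
  set u := resPt W₀ fun i => w i t₀
  obtain ⟨r, hrs, hru, hrd⟩ := exists_residual_point hW (u - s) s (-u)
  obtain ⟨P₁, R, hP₁, hr₁⟩ := exists_rep_resPt hW r
  -- the representative of `-R`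
  obtain ⟨P₂, hP₂⟩ := exists_rep hW (-R)
  have hr₂ : resPt W₀ P₂ = -r := by
    have hneg : Rep W₀ (W₀.toProjective.neg P₁) (-R) := by
      refine ⟨?_, ?_, ?_⟩
      · rw [← Projective.map_neg]; exact Projective.nonsingular_neg hP₁.1
      · rw [← Projective.map_neg]; exact Projective.nonsingular_neg hP₁.2.1
      · rw [← Projective.map_neg, Projective.Point.toAffine_neg hP₁.1, hP₁.2.2]
    by_contra hne
    -- two representatives of one point reduce alike
    have h1 : resPt W₀ P₂ ≠ resPt W₀ (W₀.toProjective.neg P₁) := by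
      rw [resPt, resPt, ← Projective.map_neg, Projective.Point.toAffine_neg hP₁.2.1]
      rw [← hr₁] at hne
      exact hne
    obtain ⟨u', hu'⟩ := @equiv_of_toAffine_eq _ _ _ (isElliptic_gen hW) _ _ hneg.1 hP₂.1
      (hneg.2.2.trans hP₂.2.2.symm)
    have h3 := (Rep.addXYZ hP₂ hneg h1).1.1
    have e1 : A.subtype ∘ W₀.toProjective.addXYZ P₂ (W₀.toProjective.neg P₁) = 0 := by
      have h4 := Projective.addXYZ_smul (W' := (W₀.map A.subtype).toProjective)
        (A.subtype ∘ P₂) (A.subtype ∘ P₂) 1 (u' : L)
      rw [one_smul, Projective.addXYZ_self] at h4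
      rw [← Projective.map_addXYZ, ← hu', Units.smul_def, h4]
      funext i; fin_cases i <;> simp
    rw [e1] at h3
    exact ((Projective.nonsingular_iff _).mp h3).2.elim (fun h => h (by simp))
      fun h => h.elim (fun h => h (by simp)) fun h => h (by simp)
  let v₁ : Fin 3 → X → A := fun i t => W₀.toProjective.addXYZ (fun j => v j t) P₁ i
  let w₁ : Fin 3 → X → A := fun i t => W₀.toProjective.addXYZ (fun j => w j t) P₂ i
  have hv₁ : ∀ i, v₁ i ∈ B := fun i =>
    addXYZ_mem B hv (fun j => const_mem B (P₁ j)) i
  have hw₁ : ∀ i, w₁ i ∈ B := fun i =>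
    addXYZ_mem B hw (fun j => const_mem B (P₂ j)) i
  refine ⟨fun i t => W₀.toProjective.addXYZ (fun j => v₁ j t) (fun j => w₁ j t) i,
    fun i => addXYZ_mem B hv₁ hw₁ i, fun t ht => ?_⟩
  have hs : resPt W₀ (fun j => v j t) = s :=
    resPt_congr W₀ (funext fun j => congrFun ht (Sum.inl j))
  have hu : resPt W₀ (fun j => w j t) = u :=
    resPt_congr W₀ (funext fun j => congrFun ht (Sum.inr j))
  obtain ⟨hA, hA'⟩ := Rep.addXYZ (hvS t) hP₁ (by rw [hs, hr₁]; exact hrs.symm)
  obtain ⟨hB, hB'⟩ := Rep.addXYZ (hwT t) hP₂ (by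
    rw [hu, hr₂]
    exact fun h => hru (by rw [h, neg_neg]))
  obtain ⟨hC, -⟩ := Rep.addXYZ hA hB (by
    rw [hA', hB', hs, hr₁, hu, hr₂, ← sub_eq_add_neg]
    intro h
    apply hrd
    calc r + r = (s + r) - s + r := by abel
      _ = u - s := by rw [h]; abel)
  rwa [show S t + R + (T t + -R) = S t + T t by abel] at hC

end FLTA.EllTate.Flat
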