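import Fermat.Agent.EllTate.Curve

/-!
# Two by two matrices killed by a quadratic, and matrices of the Tate module
-/

set_option autoImplicit false

open scoped Classical
open WeierstrassCurve
open scoped WeierstrassCurve.Affine

noncomputable section

namespace FLTA.EllTate

open FLTA.EllReduction Matrix

local notation "Qbar" => AlgebraicClosure ℚ
local notation "Γ" => AlgebraicClosure ℚ ≃ₐ[ℚ] AlgebraicClosure ℚ

attribute [local instance 10000] AlgebraicClosure.instAlgebra

/-- A non-scalar matrix killed by `X² - a X + l` has trace `a` and determinant `l`; a scalar one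
is a root. -/
lemma trace_det_of_quadratic {R : Type} [CommRing R] [IsDomain R] {M : Matrix (Fin 2) (Fin 2) R}
    {a l : R} (h : M * M - a • M + l • 1 = 0) :
    (M.trace = a ∧ M.det = l) ∨ (∃ c : R, M = c • 1 ∧ c ^ 2 - a * c + l = 0) := by
  have h00 := congrFun (congrFun h 0) 0
  have h01 := congrFun (congrFun h 0) 1
  have h10 := congrFun (congrFun h 1) 0
  have h11 := congrFun (congrFun h 1) 1
  simp [mul_apply, Fin.sum_univ_two] at h00 h01 h10 h11
  by_cases ht : M 0 0 + M 1 1 = a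
  · refine .inl ⟨by rw [trace_fin_two, ht], ?_⟩
    rw [det_fin_two]
    linear_combination (M 0 0) * ht - h00
  · refine .inr ⟨M 0 0, ?_, ?_⟩
    · have hne : M 0 0 + M 1 1 - a ≠ 0 := sub_ne_zero.mpr ht
      have e01 : M 0 1 = 0 := (mul_eq_zero.mp (show (M 0 0 + M 1 1 - a) * M 0 1 = 0 by
        linear_combination h01)).resolve_left hne
      have e10 : M 1 0 = 0 := (mul_eq_zero.mp (show (M 0 0 + M 1 1 - a) * M 1 0 = 0 by
        linear_combination h10)).resolve_left hne
      have e11 : M 1 1 = M 0 0 := sub_eq_zero.mp ((mul_eq_zero.mp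
        (show (M 0 0 + M 1 1 - a) * (M 1 1 - M 0 0) = 0 by
          linear_combination h11 - h00)).resolve_left hne)
      ext i j
      fin_cases i <;> fin_cases j <;> simp [e01, e10, e11]
    · have hne : M 0 0 + M 1 1 - a ≠ 0 := sub_ne_zero.mpr ht
      have e01 : M 0 1 = 0 := (mul_eq_zero.mp (show (M 0 0 + M 1 1 - a) * M 0 1 = 0 by
        linear_combination h01)).resolve_left hne
      linear_combination h00 - M 1 0 * e01

variable {W : WeierstrassCurve ℤ} {hΔ : W.Δ ≠ 0} {p : ℕ} [Fact p.Prime]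

variable (W hΔ p) in
/-- A basis of the Tate module. -/
def tateBasis : Module.Basis (Fin 2) ℤ_[p] (tateRep W hΔ p).V :=
  Module.finBasisOfFinrankEq ℤ_[p] _ (tateRep W hΔ p).finrank_eq

variable (W hΔ p) in
/-- The matrices of the Tate module. -/
def tateMat : Γ →* Matrix (Fin 2) (Fin 2) ℤ_[p] :=
  (LinearMap.toMatrixAlgEquiv (tateBasis W hΔ p)).toMonoidHom.comp (tateRep W hΔ p).ρ

lemma det_eq_det_tateMat (σ : Γ) :
    LinearMap.det ((tateRep W hΔ p).ρ σ) = (tateMat W hΔ p σ).det :=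
  (LinearMap.det_toMatrix (tateBasis W hΔ p) _).symm

lemma trace_eq_trace_tateMat (σ : Γ) :
    (tateRep W hΔ p).trace σ = (tateMat W hΔ p σ).trace :=
  LinearMap.trace_eq_matrix_trace ℤ_[p] (tateBasis W hΔ p) _

lemma charpoly_eq_charpoly_tateMat (σ : Γ) :
    ((tateRep W hΔ p).ρ σ).charpoly = (tateMat W hΔ p σ).charpoly :=
  (LinearMap.charpoly_toMatrix _ (tateBasis W hΔ p)).symm

/-- A quadratic relation on all `p`-power torsion passes to the matrices. -/
lemma tateMat_quadratic {σ : Γ} {a l : ℤ}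
    (h : ∀ (n : ℕ) (P : GeomPoint W), p ^ n • P = 0 → σ • σ • P - a • (σ • P) + l • P = 0) :
    tateMat W hΔ p σ * tateMat W hΔ p σ - (a : ℤ_[p]) • tateMat W hΔ p σ + (l : ℤ_[p]) • 1 = 0 := by
  have h0 : tateAction W p σ * tateAction W p σ - (a : ℤ_[p]) • tateAction W p σ +
      (l : ℤ_[p]) • 1 = 0 := by
    refine LinearMap.ext fun f => TateSeq.ext' fun n => ?_
    simp only [LinearMap.add_apply, LinearMap.sub_apply, LinearMap.smul_apply,
      Module.End.mul_apply, Module.End.one_apply, LinearMap.zero_apply, map_add, map_sub,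
      Int.cast_smul_eq_zsmul, map_zsmul, comp_tateAction, map_zero]
    exact h n _ (TateSeq.pow_nsmul_comp f n)
  have h1 : (tateRep W hΔ p).ρ σ * (tateRep W hΔ p).ρ σ - (a : ℤ_[p]) • (tateRep W hΔ p).ρ σ +
      (l : ℤ_[p]) • 1 = 0 := h0
  have := congrArg (LinearMap.toMatrixAlgEquiv (tateBasis W hΔ p)) h1
  rw [map_add, map_sub, map_mul, map_smul, map_smul, map_one, map_zero] at this
  exact this

/-- At semistable primes away from `p` the Tate module is unipotent on inertia. -/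
theorem isUnipotentOnInertiaAt_of_semistable {q : ℕ} (hq : q.Prime) (hqp : q ≠ p)
    (hss : ¬ (q : ℤ) ∣ W.Δ ∨ ¬ (q : ℤ) ∣ W.c₄) (A : ValuationSubring Qbar)
    (hA : A.LiesOverPrime q) {σ : Γ} (hσ : σ ∈ A.inertiaSubgroupIn ℚ) :
    LinearMap.charpoly ((tateRep W hΔ p).ρ σ) = (Polynomial.X - 1) ^ 2 := by
  have hq' : ∀ n : ℕ, ¬ q ∣ p ^ n := fun n h =>
    hqp ((Nat.prime_dvd_prime_iff_eq hq Fact.out).mp (hq.dvd_of_dvd_pow h))
  have h : tateMat W hΔ p σ * tateMat W hΔ p σ - ((2 : ℤ) : ℤ_[p]) • tateMat W hΔ p σ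
      + ((1 : ℤ) : ℤ_[p]) • 1 = 0 := by
    refine tateMat_quadratic fun n P hP => ?_
    have h1 := smul_smul_sub_eq hq hA hss hΔ (hq' n) hσ hσ hP
    rw [smul_sub, sub_eq_sub_iff_add_eq_add] at h1
    rw [two_zsmul, one_zsmul, ← h1]
    abel
  have h2 : (tateMat W hΔ p σ).trace = 2 ∧ (tateMat W hΔ p σ).det = 1 := by
    rcases trace_det_of_quadratic h with h' | ⟨c, hc, hc'⟩
    · simpa using h'
    · have hc1 : c = 1 := sub_eq_zero.mp (pow_eq_zero_iff two_ne_zero |>.mp
        (show (c - 1) ^ 2 = 0 by push_cast at hc'; linear_combination hc'))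
      rw [hc, hc1, one_smul, trace_one, det_one]
      simp
  rw [charpoly_eq_charpoly_tateMat, Matrix.charpoly_fin_two, h2.1, h2.2, map_one, map_ofNat]
  ring

theorem isUnipotentOnInertiaAt_tateRep {q : ℕ} (hq : q.Prime) (hqp : q ≠ p)
    (hW : W.IsSemistableModel) :
    ∀ A : ValuationSubring Qbar, A.LiesOverPrime q → ∀ σ ∈ A.inertiaSubgroupIn ℚ,
      LinearMap.charpoly ((tateRep W hΔ p).ρ σ) = (Polynomial.X - 1) ^ 2 :=
  fun A hA _ hσ => isUnipotentOnInertiaAt_of_semistable hq hqp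
    ((em _).elim (Or.inr ∘ hW q hq) Or.inl) A hA hσ

end FLTA.EllTate
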