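import Mathlib

/-!
# The `p`-adic Tate module of an abelian group with two dimensional torsion

`TateSeq G p` is the inverse limit of the `G[p ^ n]`; it is free of rank two over `ℤ_[p]` when
multiplication by `p` is surjective on `G` and `#G[p ^ n] = p ^ (2 n)`.
-/

set_option autoImplicit false

noncomputable section

namespace FLTA.EllTate

variable {G : Type} [AddCommGroup G] {p : ℕ}

/-- Compatible systems of `p`-power torsion. -/
def tateSeq (G : Type) [AddCommGroup G] (p : ℕ) : AddSubgroup (ℕ → G) where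
  carrier := {f | ∀ n, p ^ n • f n = 0 ∧ p • f (n + 1) = f n}
  zero_mem' := fun n => ⟨smul_zero _, smul_zero _⟩
  add_mem' := fun {f g} hf hg n => ⟨by rw [Pi.add_apply, smul_add, (hf n).1, (hg n).1, add_zero],
    by rw [Pi.add_apply, Pi.add_apply, smul_add, (hf n).2, (hg n).2]⟩
  neg_mem' := fun {f} hf n => ⟨by rw [Pi.neg_apply, smul_neg, (hf n).1, neg_zero],
    by rw [Pi.neg_apply, Pi.neg_apply, smul_neg, (hf n).2]⟩

/-- The Tate module. -/
def TateSeq (G : Type) [AddCommGroup G] (p : ℕ) : Type := ↥(tateSeq G p)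

instance instAddCommGroupTateSeq (G : Type) [AddCommGroup G] (p : ℕ) :
    AddCommGroup (TateSeq G p) :=
  inferInstanceAs (AddCommGroup ↥(tateSeq G p))

namespace TateSeq

/-- The component at level `n`. -/
def comp (n : ℕ) : TateSeq G p →+ G where
  toFun f := f.1 n
  map_zero' := rfl
  map_add' _ _ := rfl

lemma ext' {f g : TateSeq G p} (h : ∀ n, comp n f = comp n g) : f = g :=
  Subtype.ext (funext h)

lemma pow_nsmul_comp (f : TateSeq G p) (n : ℕ) : p ^ n • comp n f = 0 := (f.2 n).1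

lemma nsmul_comp_succ (f : TateSeq G p) (n : ℕ) : p • comp (n + 1) f = comp n f := (f.2 n).2

lemma pow_nsmul_comp_add (f : TateSeq G p) (n k : ℕ) : p ^ k • comp (n + k) f = comp n f := by
  induction k with
  | zero => rw [pow_zero, one_smul, add_zero]
  | succ k ih => rw [← add_assoc, pow_succ, mul_smul, nsmul_comp_succ, ih]

end TateSeq

/-- Multiples of a point killed by `p ^ n` depend on the multiplier modulo `p ^ n`. -/
lemma nsmul_eq_of_natCast_eq {n a b : ℕ} {x : G} (hx : p ^ n • x = 0)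
    (h : (a : ZMod (p ^ n)) = b) : a • x = b • x :=
  nsmul_eq_nsmul_iff_modEq.mpr (((ZMod.natCast_eq_natCast_iff a b (p ^ n)).mp h).of_dvd
    (addOrderOf_dvd_iff_nsmul_eq_zero.mpr hx))

lemma mod_nsmul_of_nsmul_eq_zero {x : G} (hx : p • x = 0) (k : ℕ) : (k % p) • x = k • x := by
  conv_rhs => rw [← Nat.mod_add_div k p, add_smul, mul_comm, mul_smul, hx, smul_zero, add_zero]

variable [Fact p.Prime]

lemma neZero_pow (n : ℕ) : NeZero (p ^ n) := ⟨pow_ne_zero _ (Fact.out : p.Prime).ne_zero⟩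

lemma natCast_val_toZModPow (x : ℤ_[p]) (n : ℕ) :
    (((PadicInt.toZModPow n x).val : ℕ) : ZMod (p ^ n)) = PadicInt.toZModPow n x :=
  have := neZero_pow (p := p) n
  ZMod.natCast_zmod_val _

/-- The action of a `p`-adic integer on a point killed by `p ^ n`. -/
def zsmulAt (x : ℤ_[p]) (n : ℕ) (a : G) : G := (PadicInt.toZModPow n x).val • a

lemma zsmulAt_eq {x : ℤ_[p]} {n k : ℕ} {a : G} (ha : p ^ n • a = 0)
    (h : PadicInt.toZModPow n x = (k : ZMod (p ^ n))) : zsmulAt x n a = k • a :=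
  nsmul_eq_of_natCast_eq ha (by rw [natCast_val_toZModPow, h])

lemma nsmul_zsmulAt_succ (x : ℤ_[p]) (n : ℕ) {a : G} (ha : p ^ (n + 1) • a = 0) :
    p • zsmulAt x (n + 1) a = zsmulAt x n (p • a) := by
  have := neZero_pow (p := p) (n + 1)
  have hpa : p ^ n • p • a = 0 := by rw [← mul_smul, ← pow_succ, ha]
  show p • ((PadicInt.toZModPow (n + 1) x).val • a) = _
  rw [smul_comm]
  refine (zsmulAt_eq hpa ?_).symm
  rw [← PadicInt.cast_toZModPow n (n + 1) n.le_succ x, ← ZMod.natCast_val]

namespace TateSeq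

instance : SMul ℤ_[p] (TateSeq G p) :=
  ⟨fun x f => ⟨fun n => zsmulAt x n (comp n f), fun n => ⟨by
    show p ^ n • ((PadicInt.toZModPow n x).val • comp n f) = 0
    rw [smul_comm, pow_nsmul_comp, smul_zero], by
    rw [nsmul_zsmulAt_succ x n (pow_nsmul_comp f (n + 1)), nsmul_comp_succ]⟩⟩⟩

lemma comp_smul (x : ℤ_[p]) (f : TateSeq G p) (n : ℕ) :
    comp n (x • f) = zsmulAt x n (comp n f) := rfl

instance : Module ℤ_[p] (TateSeq G p) where
  one_smul f := ext' fun n => by
    rw [comp_smul, zsmulAt_eq (pow_nsmul_comp f n) (k := 1) (by rw [map_one, Nat.cast_one]),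
      one_smul]
  mul_smul x y f := ext' fun n => by
    rw [comp_smul, comp_smul, comp_smul]
    refine (zsmulAt_eq (pow_nsmul_comp f n)
      (k := (PadicInt.toZModPow n x).val * (PadicInt.toZModPow n y).val) ?_).trans (mul_smul _ _ _)
    rw [map_mul, Nat.cast_mul, natCast_val_toZModPow, natCast_val_toZModPow]
  smul_zero x := ext' fun n => by rw [comp_smul, map_zero, zsmulAt, smul_zero]
  smul_add x f g := ext' fun n => by
    rw [comp_smul, map_add, map_add, comp_smul, comp_smul, zsmulAt, zsmulAt, zsmulAt, smul_add]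
  add_smul x y f := ext' fun n => by
    rw [map_add (comp n), comp_smul, comp_smul, comp_smul]
    refine (zsmulAt_eq (pow_nsmul_comp f n)
      (k := (PadicInt.toZModPow n x).val + (PadicInt.toZModPow n y).val) ?_).trans (add_smul _ _ _)
    rw [map_add, Nat.cast_add, natCast_val_toZModPow, natCast_val_toZModPow]
  zero_smul f := ext' fun n => by
    rw [comp_smul, zsmulAt_eq (pow_nsmul_comp f n) (k := 0) (by rw [map_zero, Nat.cast_zero]),
      zero_smul, map_zero]

lemma comp_natCast_smul (k : ℕ) (f : TateSeq G p) (n : ℕ) :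
    comp n ((k : ℤ_[p]) • f) = k • comp n f := by rw [Nat.cast_smul_eq_nsmul, map_nsmul]

lemma comp_smul_eq_zero {x : ℤ_[p]} {n : ℕ} (hx : x ∈ Ideal.span {(p : ℤ_[p]) ^ n})
    (f : TateSeq G p) : comp n (x • f) = 0 := by
  rw [comp_smul, zsmulAt_eq (pow_nsmul_comp f n) (k := 0) ?_, zero_smul]
  rw [Nat.cast_zero, ← RingHom.mem_ker, PadicInt.ker_toZModPow]
  exact hx

lemma comp_eq_zero_of_mem {n : ℕ} {f : TateSeq G p}
    (hf : f ∈ Ideal.span {(p : ℤ_[p]) ^ n} • (⊤ : Submodule ℤ_[p] (TateSeq G p))) :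
    comp n f = 0 := by
  refine Submodule.smul_induction_on hf (fun r hr g _ => comp_smul_eq_zero hr g) ?_
  intro f g hf hg
  rw [map_add, hf, hg, add_zero]

lemma mem_of_comp_eq_zero {n : ℕ} {f : TateSeq G p} (hf : comp n f = 0) :
    f ∈ Ideal.span {(p : ℤ_[p]) ^ n} • (⊤ : Submodule ℤ_[p] (TateSeq G p)) := by
  let g : TateSeq G p := ⟨fun k => comp (n + k) f, fun k =>
    ⟨(pow_nsmul_comp_add f n k).trans hf, nsmul_comp_succ f (n + k)⟩⟩
  have e : f = ((p ^ n : ℕ) : ℤ_[p]) • g := ext' fun k => by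
    rw [comp_natCast_smul]
    show comp k f = p ^ n • comp (n + k) f
    rw [add_comm n k, pow_nsmul_comp_add]
  rw [e, Nat.cast_pow]
  exact Submodule.smul_mem_smul (Ideal.mem_span_singleton_self _) Submodule.mem_top

/-- Functoriality. -/
def mapEnd (φ : G →+ G) : Module.End ℤ_[p] (TateSeq G p) where
  toFun f := ⟨fun n => φ (comp n f), fun n => ⟨by rw [← map_nsmul, pow_nsmul_comp, map_zero],
    by rw [← map_nsmul, nsmul_comp_succ]⟩⟩
  map_add' f g := ext' fun n => map_add φ (comp n f) (comp n g)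
  map_smul' x f := ext' fun n => map_nsmul φ _ (comp n f)

@[simp] lemma comp_mapEnd (φ : G →+ G) (f : TateSeq G p) (n : ℕ) :
    comp n (mapEnd φ f) = φ (comp n f) := rfl

end TateSeq

section Free

/-- A compatible sequence through a given point of order dividing `p`. -/
lemma exists_seq (hdiv : ∀ y : G, ∃ x, p • x = y) {a : G} (ha : p • a = 0) :
    ∃ f : TateSeq G p, TateSeq.comp 1 f = a := by
  choose d hd using hdiv
  let f : ℕ → G := fun n => match n with
    | 0 => 0
    | n + 1 => d^[n] a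
  have h : ∀ n, p • f (n + 1) = f n := by
    intro n
    cases n with
    | zero => exact ha
    | succ n =>
      show p • d^[n + 1] a = d^[n] a
      rw [Function.iterate_succ_apply', hd]
  have h' : ∀ n, p ^ n • f n = 0 := by
    intro n
    induction n with
    | zero => exact smul_zero _
    | succ n ih => rw [pow_succ, mul_smul, h, ih]
  exact ⟨⟨f, fun n => ⟨h' n, h n⟩⟩, rfl⟩

/-- A compatible family of residues is a `p`-adic integer. -/
lemma exists_padic_of_compat {a : ∀ k, ZMod (p ^ k)}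
    (h : ∀ k, ((a (k + 1)).val : ZMod (p ^ k)) = a k) :
    ∃ x : ℤ_[p], ∀ k, PadicInt.toZModPow k x = a k := by
  have := fun k => neZero_pow (p := p) k
  have hdvd : ∀ k, (p : ℤ) ^ k ∣ ((a (k + 1)).val : ℤ) - ((a k).val : ℤ) := by
    intro k
    have h1 : ((((a (k + 1)).val : ℤ) - (a k).val : ℤ) : ZMod (p ^ k)) = 0 := by
      rw [Int.cast_sub, Int.cast_natCast, Int.cast_natCast, h, ZMod.natCast_zmod_val, sub_self]
    simpa using (ZMod.intCast_zmod_eq_zero_iff_dvd _ _).mp h1
  refine ⟨PadicInt.ofIntSeq _ (PadicInt.isCauSeq_padicNorm_of_pow_dvd_sub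
    (fun k => ((a k).val : ℤ)) p hdvd), fun k => ?_⟩
  rw [PadicInt.toZModPow_ofIntSeq_of_pow_dvd_sub (fun k => ((a k).val : ℤ)) p hdvd k]
  simp

variable (hdiv : ∀ y : G, ∃ x, p • x = y)
  (hcard : ∀ n : ℕ, Nat.card {x : G // p ^ n • x = 0} = (p ^ n) ^ 2)

include hdiv hcard in
/-- The Tate module is free of rank two. -/
theorem nonempty_linearEquiv : Nonempty ((Fin 2 → ℤ_[p]) ≃ₗ[ℤ_[p]] TateSeq G p) := by
  classical
  have hp : p.Prime := Fact.out
  have hne := fun k => neZero_pow (p := p) k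
  -- two independent points of order `p`
  obtain ⟨a, ha, ha0⟩ : ∃ a : G, p • a = 0 ∧ a ≠ 0 := by
    by_contra hcon
    push Not at hcon
    have : Subsingleton {x : G // p ^ 1 • x = 0} := ⟨fun x y => Subtype.ext <| by
      exact (hcon x.1 (by simpa using x.2)).trans (hcon y.1 (by simpa using y.2)).symm⟩
    have h := hcard 1
    rw [Nat.card_of_subsingleton (⟨0, smul_zero _⟩ : {x : G // p ^ 1 • x = 0}), pow_one] at h
    nlinarith [hp.two_le]
  obtain ⟨b, hb, hb0⟩ : ∃ b : G, p • b = 0 ∧ ∀ k : ℕ, b ≠ k • a := by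
    by_contra hcon
    push Not at hcon
    have hsurj : Function.Surjective (fun k : Fin p => (⟨(k : ℕ) • a, by
        rw [pow_one, smul_comm, ha, smul_zero]⟩ : {x : G // p ^ 1 • x = 0})) := fun x => by
      obtain ⟨k, hk⟩ := hcon x.1 (by simpa using x.2)
      refine ⟨⟨k % p, Nat.mod_lt _ hp.pos⟩, Subtype.ext ?_⟩
      show (k % p) • a = x.1
      rw [hk]
      exact mod_nsmul_of_nsmul_eq_zero ha k
    have h := Nat.card_le_card_of_surjective _ hsurj
    rw [hcard 1, pow_one, Nat.card_eq_fintype_card, Fintype.card_fin] at h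
    nlinarith [hp.two_le]
  have hindep : ∀ i j : ℕ, i • a + j • b = 0 → p ∣ i ∧ p ∣ j := by
    intro i j h
    have hj : p ∣ j := by
      by_contra hj
      obtain ⟨c, -, hc⟩ := Nat.exists_mul_mod_eq_one_of_coprime
        ((hp.coprime_iff_not_dvd.mpr hj).symm) hp.one_lt
      have h1 : c • (i • a + j • b) = 0 := by rw [h, smul_zero]
      rw [smul_add, ← mul_smul, ← mul_smul, mul_comm c j] at h1
      have hjb : (j * c) • b = b := by
        rw [← mod_nsmul_of_nsmul_eq_zero hb (j * c), hc, one_smul]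
      rw [hjb] at h1
      refine hb0 ((p - 1) * (c * i)) ?_
      have h2 : ((c * i) + (p - 1) * (c * i)) • a = 0 := by
        rw [show c * i + (p - 1) * (c * i) = p * (c * i) by
          obtain ⟨r, hr⟩ := Nat.exists_eq_succ_of_ne_zero hp.ne_zero
          rw [hr]; simp; ring, mul_comm, mul_smul, ha, smul_zero]
      rw [add_smul] at h2
      rw [eq_neg_of_add_eq_zero_right h1, eq_neg_of_add_eq_zero_right h2]
    refine ⟨?_, hj⟩
    obtain ⟨t, rfl⟩ := hj
    rw [mul_comm, mul_smul, hb, smul_zero, add_zero] at h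
    rcases (Nat.dvd_prime hp).mp (addOrderOf_dvd_iff_nsmul_eq_zero.mpr ha) with h1 | h1
    · exact absurd (AddMonoid.addOrderOf_eq_one_iff.mp h1) ha0
    · exact h1 ▸ addOrderOf_dvd_iff_nsmul_eq_zero.mpr h
  obtain ⟨P, hP⟩ := exists_seq hdiv ha
  obtain ⟨Q, hQ⟩ := exists_seq hdiv hb
  have hinj : ∀ (n i j : ℕ), i • TateSeq.comp n P + j • TateSeq.comp n Q = 0 →
      p ^ n ∣ i ∧ p ^ n ∣ j := by
    intro n
    induction n with
    | zero => exact fun i j _ => ⟨one_dvd _, one_dvd _⟩
    | succ n ih =>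
      intro i j h
      have h1 : i • a + j • b = 0 := by
        rw [← hP, ← hQ, ← TateSeq.pow_nsmul_comp_add P 1 n, ← TateSeq.pow_nsmul_comp_add Q 1 n,
          smul_comm i, smul_comm j, ← smul_add, add_comm 1 n, h, smul_zero]
      obtain ⟨⟨i', rfl⟩, ⟨j', rfl⟩⟩ := hindep i j h1
      have h2 : i' • TateSeq.comp n P + j' • TateSeq.comp n Q = 0 := by
        rw [← TateSeq.nsmul_comp_succ P n, ← TateSeq.nsmul_comp_succ Q n, smul_comm i',
          smul_comm j', ← smul_add, smul_add p, ← mul_smul, ← mul_smul, h]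
      obtain ⟨h3, h4⟩ := ih i' j' h2
      exact ⟨by rw [pow_succ']; exact Nat.mul_dvd_mul_left p h3,
        by rw [pow_succ']; exact Nat.mul_dvd_mul_left p h4⟩
  let F : ∀ n : ℕ, ZMod (p ^ n) × ZMod (p ^ n) → {x : G // p ^ n • x = 0} := fun n uv =>
    ⟨uv.1.val • TateSeq.comp n P + uv.2.val • TateSeq.comp n Q, by
      rw [smul_add, smul_comm, TateSeq.pow_nsmul_comp, smul_zero, smul_comm,
        TateSeq.pow_nsmul_comp, smul_zero, add_zero]⟩
  have hF : ∀ n, Function.Bijective (F n) := by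
    intro n
    have : Finite {x : G // p ^ n • x = 0} := Nat.finite_of_card_ne_zero (by
      rw [hcard n]; exact pow_ne_zero _ (pow_ne_zero _ hp.ne_zero))
    refine (Nat.bijective_iff_injective_and_card (F n)).mpr ⟨?_, ?_⟩
    · rintro ⟨u, v⟩ ⟨u', v'⟩ h
      have h1 := congrArg Subtype.val h
      simp only [F] at h1
      have h2 : ((u - u').val) • TateSeq.comp n P + ((v - v').val) • TateSeq.comp n Q = 0 := by
        have e1 : u.val • TateSeq.comp n P =
            (u - u').val • TateSeq.comp n P + u'.val • TateSeq.comp n P := by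
          rw [← add_smul]
          exact nsmul_eq_of_natCast_eq (TateSeq.pow_nsmul_comp P n) (by simp)
        have e2 : v.val • TateSeq.comp n Q =
            (v - v').val • TateSeq.comp n Q + v'.val • TateSeq.comp n Q := by
          rw [← add_smul]
          exact nsmul_eq_of_natCast_eq (TateSeq.pow_nsmul_comp Q n) (by simp)
        rw [e1, e2, add_add_add_comm] at h1
        exact add_eq_right.mp h1
      obtain ⟨h3, h4⟩ := hinj n _ _ h2
      refine Prod.ext (sub_eq_zero.mp ?_) (sub_eq_zero.mp ?_)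
      · rw [← ZMod.natCast_zmod_val (u - u'), ZMod.natCast_eq_zero_iff]; exact h3
      · rw [← ZMod.natCast_zmod_val (v - v'), ZMod.natCast_eq_zero_iff]; exact h4
    · rw [hcard n, Nat.card_prod, Nat.card_zmod, sq]
  let φ : (Fin 2 → ℤ_[p]) →ₗ[ℤ_[p]] TateSeq G p := Fintype.linearCombination ℤ_[p] ![P, Q]
  have hφ : ∀ (c : Fin 2 → ℤ_[p]) (n : ℕ), TateSeq.comp n (φ c) =
      (F n (PadicInt.toZModPow n (c 0), PadicInt.toZModPow n (c 1))).1 := fun c n => by
    simp [φ, F, Fintype.linearCombination_apply, TateSeq.comp_smul, zsmulAt]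
  refine ⟨LinearEquiv.ofBijective φ ⟨?_, ?_⟩⟩
  · intro c c' h
    have h1 : ∀ n, (PadicInt.toZModPow n (c 0), PadicInt.toZModPow n (c 1)) =
        (PadicInt.toZModPow n (c' 0), PadicInt.toZModPow n (c' 1)) := fun n =>
      (hF n).1 (Subtype.ext (by rw [← hφ, ← hφ, h]))
    funext i
    fin_cases i
    · exact PadicInt.ext_of_toZModPow.mp fun n => congrArg Prod.fst (h1 n)
    · exact PadicInt.ext_of_toZModPow.mp fun n => congrArg Prod.snd (h1 n)
  · intro f
    choose uv huv using fun n => (hF n).2 ⟨TateSeq.comp n f, TateSeq.pow_nsmul_comp f n⟩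
    have hcomp : ∀ n, ((((uv (n + 1)).1).val : ZMod (p ^ n)), (((uv (n + 1)).2).val : ZMod (p ^ n)))
        = uv n := by
      intro n
      refine (hF n).1 (Subtype.ext ?_)
      rw [huv n]
      show _ = TateSeq.comp n f
      rw [← TateSeq.nsmul_comp_succ f n]
      have h1 := congrArg Subtype.val (huv (n + 1))
      simp only [F] at h1 ⊢
      rw [← h1, smul_add, smul_comm p, smul_comm p, TateSeq.nsmul_comp_succ,
        TateSeq.nsmul_comp_succ]
      congr 1 <;> exact nsmul_eq_of_natCast_eq (TateSeq.pow_nsmul_comp _ n)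
        (ZMod.natCast_zmod_val _)
    obtain ⟨x, hx⟩ := exists_padic_of_compat (a := fun n => (uv n).1)
      fun n => congrArg Prod.fst (hcomp n)
    obtain ⟨y, hy⟩ := exists_padic_of_compat (a := fun n => (uv n).2)
      fun n => congrArg Prod.snd (hcomp n)
    refine ⟨![x, y], TateSeq.ext' fun n => ?_⟩
    rw [hφ]
    simp only [Matrix.cons_val_zero, Matrix.cons_val_one, hx, hy]
    exact congrArg Subtype.val (huv n)

end Free

end FLTA.EllTate
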