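import Fermat.Agent.Mazur.EllAtP
import Fermat.Agent.Galois.Places
import Mathlib.FieldTheory.Finite.Basic

/-!
# The decomposition group on the component group at a multiplicative place

An element of the decomposition group either fixes the two tangent lines at the node and then
preserves every component, or exchanges them and then negates the component of every point.
-/

set_option autoImplicit false

open scoped Classical
open WeierstrassCurve
open scoped WeierstrassCurve.Affine

namespace FLTA.EllTate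

open FLTA.EllReduction FLTA.EllIsogeny

local notation "Qbar" => AlgebraicClosure ℚ
local notation "Γ" => AlgebraicClosure ℚ ≃ₐ[ℚ] AlgebraicClosure ℚ

attribute [local instance 10000] AlgebraicClosure.instAlgebra

/-- The tangent quadratic at the node of the reduction modulo `p` has a root. -/
def IsSplitAt (W : WeierstrassCurve ℤ) (p : ℕ) : Prop :=
  ∃ s : ZMod p, (W.c₄ : ZMod p) * (s ^ 2 + (W.a₁ : ZMod p) * s - (W.a₂ : ZMod p)) =
    ((3 * (18 * W.b₆ - W.b₂ * W.b₄) : ℤ) : ZMod p)

/-- The sign of multiplicative reduction: `1` if split, `-1` otherwise. -/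
noncomputable def nodeSign (W : WeierstrassCurve ℤ) (p : ℕ) : ℤ :=
  if IsSplitAt W p then 1 else -1

lemma nodeSign_sq (W : WeierstrassCurve ℤ) (p : ℕ) : nodeSign W p ^ 2 = 1 := by
  unfold nodeSign
  split_ifs <;> norm_num

variable {W : WeierstrassCurve ℤ} {p : ℕ} {A : ValuationSubring Qbar}

/-- The decomposition group preserves valuations. -/
lemma valuation_apply_eq (hp : p.Prime) (hA : A.LiesOverPrime p) {σ : Γ}
    (hσ : σ ∈ A.decompositionSubgroup ℚ) (x : Qbar) : A.valuation (σ x) = A.valuation x := by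
  rcases eq_or_ne x 0 with rfl | hx
  · rw [map_zero]
  have hle : ∀ z : Qbar, A.valuation z ≤ 1 → A.valuation (σ z) ≤ 1 := fun z hz =>
    valuation_le_one_of_mem (FLTA.Galois.apply_mem_of_mem_decompositionSubgroup hσ
      (A.mem_of_valuation_le_one z hz))
  have : @Algebra.IsAlgebraic ℚ Qbar _ _ DivisionRing.toRatAlgebra := AlgebraicClosure.isAlgebraic ℚ
  obtain ⟨d, i, hd, hdi⟩ := FreyAux.exists_zpow_eq A hp hA hx
  have hq0 : A.valuation ((p : Qbar) ^ i) ≠ 0 :=
    A.valuation.ne_zero_iff.mpr (zpow_ne_zero _ (Nat.cast_ne_zero.mpr hp.ne_zero))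
  have hxd : A.valuation (x ^ d) = A.valuation ((p : Qbar) ^ i) := by
    rw [map_pow, map_zpow₀, hdi]
  have h1 : A.valuation (σ (x ^ d / (p : Qbar) ^ i)) ≤ 1 :=
    hle _ (by rw [map_div₀, hxd, div_self hq0])
  have h2 : A.valuation (σ ((p : Qbar) ^ i / x ^ d)) ≤ 1 :=
    hle _ (by rw [map_div₀, hxd, div_self hq0])
  have hσq : σ ((p : Qbar) ^ i) = (p : Qbar) ^ i := by rw [map_zpow₀, map_natCast]
  rw [map_div₀, hσq, map_div₀] at h1 h2
  have hσx : A.valuation (σ (x ^ d)) ≠ 0 :=
    A.valuation.ne_zero_iff.mpr ((map_ne_zero_iff _ σ.injective).mpr (pow_ne_zero _ hx))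
  rw [div_le_one₀ (zero_lt_iff.mpr hq0)] at h1
  rw [div_le_one₀ (zero_lt_iff.mpr hσx)] at h2
  have h3 := le_antisymm h1 h2
  rw [← hxd, map_pow, map_pow, map_pow] at h3
  exact (pow_left_inj₀ zero_le zero_le hd.ne').mp h3

variable (hp : p.Prime) (hA : A.LiesOverPrime p) (hΔ : W.Δ ≠ 0) (hΔp : (p : ℤ) ∣ W.Δ)
  (hc₄ : ¬ (p : ℤ) ∣ W.c₄)

include hp hA hΔ hΔp hc₄

/-- The decomposition group acts on components through a sign, which at a Frobenius element is the
sign of the reduction. -/
theorem exists_sign {σ : Γ} (hσ : σ ∈ A.decompositionSubgroup ℚ) :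
    ∃ s : ℤ, s ^ 2 = 1 ∧ (∀ P : GeomPoint W, σ • P - s • P ∈ E0Z W A) ∧
      (A.IsFrobeniusAt σ p → s = nodeSign W p) := by
  obtain ⟨C, a, hC, heq, ha0, hval, hnear, hfix⟩ :=
    exists_normalForm (geomCurve_integralAt W A)
      (by rw [geomCurve_Δ]; exact valuation_intCast_lt_one hA hΔp)
      (by rw [geomCurve_c₄]; exact valuation_intCast_of_not_dvd hp hA hc₄)
      (by rw [geomCurve_Δ]; exact Int.cast_ne_zero.mpr hΔ)
  have hv : A.valuation (geomCurve W).Δ < 1 := by
    rw [geomCurve_Δ]; exact valuation_intCast_lt_one hA hΔp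
  have ha : A.valuation a < 1 := hval ▸ hv
  have e := geomCurve_eq W
  let D : MultData W A :=
    ⟨C, a, hC, heq, ha0, ha, hval, fun τ hτ => by
      refine hfix τ.toRingEquiv hτ ?_ ?_ ?_ ?_ ?_ <;>
        · rw [e]; exact map_intCast τ.toRingEquiv _⟩
  -- the coefficients of the change of variables
  have hu0 : (C.u : Qbar) ≠ 0 := C.u.ne_zero
  have c1 := congrArg WeierstrassCurve.a₁ heq
  have c2 := congrArg WeierstrassCurve.a₂ heq
  have c3 := congrArg WeierstrassCurve.a₃ heq
  have c4 := congrArg WeierstrassCurve.a₄ heq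
  have c6 := congrArg WeierstrassCurve.a₆ heq
  simp only [variableChange_def, Units.val_inv_eq_inv_val] at c1 c2 c3 c4 c6
  set b₁ := (geomCurve W).a₁ with hb₁
  set b₂' := (geomCurve W).a₂ with hb₂
  set b₃ := (geomCurve W).a₃ with hb₃
  set b₄' := (geomCurve W).a₄ with hb₄
  set b₆' := (geomCurve W).a₆ with hb₆
  have hb : σ b₁ = b₁ ∧ σ b₂' = b₂' ∧ σ b₃ = b₃ ∧ σ b₄' = b₄' ∧ σ b₆' = b₆' := by
    refine ⟨?_, ?_, ?_, ?_, ?_⟩
    all_goals
      simp only [hb₁, hb₂, hb₃, hb₄, hb₆, e]
      exact map_intCast σ _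
  obtain ⟨f1, f2, f3, f4, f6⟩ := hb
  have hu : (C.u : Qbar) = b₁ + 2 * C.s := by
    field_simp at c1
    linear_combination -c1
  have hs : C.s ^ 2 + b₁ * C.s = b₂' + 3 * C.r := by
    field_simp at c2
    linear_combination -c2
  have ht : 2 * C.t = -(b₃ + C.r * b₁) := by
    field_simp at c3
    linear_combination c3
  have h4 : b₄' - C.s * b₃ + 2 * C.r * b₂' - (C.t + C.r * C.s) * b₁ + 3 * C.r ^ 2
      - 2 * C.s * C.t = 0 := by
    field_simp at c4
    linear_combination c4
  have hr6 : (geomCurve W).b₄ + C.r * (geomCurve W).b₂ + 6 * C.r ^ 2 = 0 := by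
    simp only [WeierstrassCurve.b₄, WeierstrassCurve.b₂, ← hb₁, ← hb₂, ← hb₃, ← hb₄]
    linear_combination 2 * h4 + (2 * C.s + b₁) * ht
  -- the node is rational, so `C.r` is fixed
  have hx0 : σ (nodeX (geomCurve W)) = nodeX (geomCurve W) := by
    simp only [nodeX, c₄, WeierstrassCurve.b₂, WeierstrassCurve.b₄, WeierstrassCurve.b₆, ← hb₁,
      ← hb₂, ← hb₃, ← hb₄, ← hb₆]
    simp [f1, f2, f3, f4, f6, map_ofNat]
  have hrlt : A.valuation (C.r - nodeX (geomCurve W)) < 1 := hnear.trans_lt hv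
  have hrσ : A.valuation (σ C.r - C.r) < 1 := by
    rw [show σ C.r - C.r = σ (C.r - nodeX (geomCurve W)) - (C.r - nodeX (geomCurve W)) by
      rw [map_sub, hx0]; ring]
    exact valuation_sub_lt_one (by rw [valuation_apply_eq hp hA hσ]; exact hrlt) hrlt
  have hσb2 : σ (geomCurve W).b₂ = (geomCurve W).b₂ := by
    simp only [WeierstrassCurve.b₂, ← hb₁, ← hb₂]
    simp [f1, f2, map_ofNat]
  have hσb4 : σ (geomCurve W).b₄ = (geomCurve W).b₄ := by
    simp only [WeierstrassCurve.b₄, ← hb₁, ← hb₃, ← hb₄]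
    simp [f1, f3, f4, map_ofNat]
  have h2r : (geomCurve W).b₂ + 12 * C.r = (C.u : Qbar) ^ 2 := by
    simp only [WeierstrassCurve.b₂, ← hb₁, ← hb₂]
    linear_combination -4 * hs - ((C.u : Qbar) + (b₁ + 2 * C.s)) * hu
  have hσr : σ C.r = C.r := by
    have heq' : (σ C.r - C.r) * (6 * (σ C.r + C.r) + (geomCurve W).b₂) = 0 := by
      have := congrArg σ hr6
      simp only [map_add, map_mul, map_pow, map_ofNat, hσb2, hσb4, map_zero] at this
      linear_combination this - hr6
    rcases mul_eq_zero.mp heq' with h | h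
    · exact sub_eq_zero.mp h
    · exfalso
      have h6A : (6 : Qbar) ∈ A := (show ((6 : ℕ) : Qbar) = 6 from rfl) ▸ natCast_mem A 6
      have hlt : A.valuation (6 * (σ C.r - C.r)) < 1 := by
        rw [mul_comm]; exact valuation_mul_lt_one hrσ h6A
      rw [show 6 * (σ C.r - C.r) = -((geomCurve W).b₂ + 12 * C.r) by linear_combination h,
        Valuation.map_neg, h2r, map_pow, hC.u, one_pow] at hlt
      exact lt_irrefl _ hlt
  have hσt : σ C.t = C.t := by
    have := congrArg σ ht
    simp only [map_add, map_mul, map_ofNat, map_neg, f3, f1, hσr] at this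
    exact mul_left_cancel₀ two_ne_zero (this.trans ht.symm)
  have hσs : σ C.s = C.s ∨ σ C.s = -b₁ - C.s := by
    have h := congrArg σ hs
    simp only [map_add, map_mul, map_pow, map_ofNat, f1, f2, hσr] at h
    have : (σ C.s - C.s) * (σ C.s + C.s + b₁) = 0 := by linear_combination h - hs
    rcases mul_eq_zero.mp this with h' | h'
    · exact .inl (sub_eq_zero.mp h')
    · exact .inr (by linear_combination h')
  -- the parameter of the node model is fixed
  have hσu2 : σ (C.u : Qbar) ^ 2 = (C.u : Qbar) ^ 2 := by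
    rw [hu, map_add, map_mul, map_ofNat, f1]
    rcases hσs with h | h <;> rw [h]
    ring
  have hσa : σ a = a := by
    have h6 : a * ((C.u : Qbar) ^ 2) ^ 3 = b₆' + C.r * b₄' + C.r ^ 2 * b₂' + C.r ^ 3 - C.t * b₃
        - C.t ^ 2 - C.r * C.t * b₁ := by
      rw [← c6]
      field_simp
    have := congrArg σ h6
    simp only [map_add, map_sub, map_mul, map_pow, f1, f2, f3, f4, f6, hσr, hσt, hσu2] at this
    exact mul_right_cancel₀ (pow_ne_zero 3 (pow_ne_zero 2 hu0)) (this.trans h6.symm)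
  have hns : ∀ {x y : Qbar}, (nodeCurve a).toAffine.Nonsingular x y →
      (nodeCurve a).toAffine.Nonsingular (σ x) (σ y) := fun {x y} h => by
    refine (Affine.equation_iff_nonsingular_of_Δ_ne_zero (nodeCurve_Δ_ne_zero ha ha0)).mp ?_
    have he := congrArg σ (nodeCurve_equation.mp h.1)
    simp only [map_add, map_mul, map_pow, hσa] at he
    exact nodeCurve_equation.mpr he
  have hcomp : ∀ {x y : Qbar} (h : (nodeCurve a).toAffine.Nonsingular x y),
      InE0 A (geomCurve W) (D.equiv (.some (σ x) (σ y) (hns h)) - D.equiv (.some x y h)) := by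
    intro x y h
    rw [← map_sub, D.inE0_iff]
    exact node_same_component ha ha0 (valuation_apply_eq hp hA hσ x) (valuation_apply_eq hp hA hσ y)
      (by rw [← map_add]; exact valuation_apply_eq hp hA hσ _)
  have hsmul : ∀ (P : GeomPoint W) (z : GeomPoint W),
      InE0 A (geomCurve W) (z - P) → z - P ∈ E0Z W A := fun P z h =>
    (inZeroComponentAt_iff W A _).mpr h
  -- the residue of `C.s`
  set k := IsLocalRing.ResidueField A
  haveI : CharP k p := FLTA.Galois.charP_residueField hp hA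
  have : Fact p.Prime := ⟨hp⟩
  let π : ZMod p →+* k := ZMod.castHom dvd_rfl k
  set r₀ : k := IsLocalRing.residue A ⟨C.s, hC.s⟩ with hr₀
  have hint : ∀ n : ℤ, π (n : ZMod p) = IsLocalRing.residue A ((n : ℤ) : A) := fun n => by
    rw [map_intCast, map_intCast]
  have hroot : π (W.c₄ : ZMod p) * (r₀ ^ 2 + π (W.a₁ : ZMod p) * r₀ - π (W.a₂ : ZMod p)) =
      π ((3 * (18 * W.b₆ - W.b₂ * W.b₄) : ℤ) : ZMod p) := by
    simp only [hint, hr₀, ← map_pow, ← map_mul, ← map_add, ← map_sub]
    refine (FLTA.Galois.residue_eq_iff_sub_mem_nonunits _ _).mpr ?_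
    rw [ValuationSubring.mem_nonunits_iff]
    have hc0 : (geomCurve W).c₄ ≠ 0 := by
      rw [geomCurve_c₄]; exact Int.cast_ne_zero.mpr fun h => hc₄ (h ▸ dvd_zero _)
    have hX := div_mul_cancel₀ (18 * (geomCurve W).b₆ - (geomCurve W).b₂ * (geomCurve W).b₄) hc0
    rw [← nodeX] at hX
    have e₁ : b₁ = ((W.a₁ : ℤ) : Qbar) := by rw [hb₁, e]; rfl
    have e₂ : b₂' = ((W.a₂ : ℤ) : Qbar) := by rw [hb₂, e]; rfl
    have e₄ : (geomCurve W).b₄ = ((W.b₄ : ℤ) : Qbar) := by rw [e, map_b₄]; rfl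
    have e₂' : (geomCurve W).b₂ = ((W.b₂ : ℤ) : Qbar) := by rw [e, map_b₂]; rfl
    have e₆ : (geomCurve W).b₆ = ((W.b₆ : ℤ) : Qbar) := by rw [e, map_b₆]; rfl
    rw [e₄, e₂', e₆, geomCurve_c₄] at hX
    rw [e₁, e₂] at hs
    push_cast
    rw [show ((3 : A) : Qbar) = 3 from map_ofNat A.subtype 3,
      show ((18 : A) : Qbar) = 18 from map_ofNat A.subtype 18,
      show ((W.c₄ : ℤ) : Qbar) * (C.s ^ 2 + ((W.a₁ : ℤ) : Qbar) * C.s - ((W.a₂ : ℤ) : Qbar)) -
        3 * (18 * ((W.b₆ : ℤ) : Qbar) - ((W.b₂ : ℤ) : Qbar) * ((W.b₄ : ℤ) : Qbar)) =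
      (C.r - nodeX (geomCurve W)) * (3 * (W.c₄ : Qbar)) by
        linear_combination (W.c₄ : Qbar) * hs + 3 * hX]
    exact valuation_mul_lt_one hrlt (mul_mem
      ((show ((3 : ℕ) : Qbar) = 3 from rfl) ▸ natCast_mem A 3) (intCast_mem A _))
  have hcne : π (W.c₄ : ZMod p) ≠ 0 :=
    (map_ne_zero π).mpr fun h => hc₄ ((ZMod.intCast_zmod_eq_zero_iff_dvd _ _).mp h)
  have hsplit : r₀ ^ p = r₀ ↔ IsSplitAt W p := by
    constructor
    · intro h
      obtain ⟨c, hc⟩ : r₀ ∈ π.fieldRange := bot_le (a := π.fieldRange)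
        ((Subfield.mem_bot_iff_pow_eq_self k p).mpr h)
      refine ⟨c, π.injective ?_⟩
      rw [map_mul, map_sub, map_add, map_mul, map_pow, hc]
      exact hroot
    · rintro ⟨c, hc⟩
      have hc' := congrArg π hc
      rw [map_mul, map_sub, map_add, map_mul, map_pow, ← hroot] at hc'
      have : (r₀ - π c) * (r₀ + π c + π (W.a₁ : ZMod p)) = 0 := by
        linear_combination -(mul_left_cancel₀ hcne hc')
      have hfix : ∀ z : ZMod p, π z ^ p = π z := fun z => by rw [← map_pow, ZMod.pow_card]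
      rcases mul_eq_zero.mp this with h | h
      · rw [sub_eq_zero.mp h, hfix]
      · rw [show r₀ = π (-c - (W.a₁ : ZMod p)) by rw [map_sub, map_neg]; linear_combination h, hfix]
  have hpow : A.IsFrobeniusAt σ p →
      ∀ z : Qbar, σ C.s = z → ∀ hz : z ∈ A, IsLocalRing.residue A ⟨z, hz⟩ = r₀ ^ p := by
    rintro hF z rfl hz
    rw [hr₀, ← map_pow, FLTA.Galois.residue_eq_iff_sub_mem_nonunits]
    exact (FLTA.Galois.isFrobeniusAt_iff.mp hF).2 C.s hC.s
  have hb₁A : b₁ ∈ A := (geomCurve_integralAt W A).a₁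
  rcases hσs with h | h
  · refine ⟨1, one_pow 2, fun P => ?_, fun hF => ?_⟩
    · refine hsmul _ _ ?_
      rw [one_zsmul]
      obtain ⟨Q, rfl⟩ := D.equiv.surjective P
      cases Q with
      | zero =>
        rw [← Affine.Point.zero_def, map_zero,
          show σ • (0 : GeomPoint W) = 0 from
            (Affine.Point.map (W' := W.map (Int.castRingHom ℚ)) σ.toAlgHom).map_zero, sub_zero]
        exact inE0_zero _
      | some x y hxy =>
        convert hcomp hxy using 2
        rw [D.equiv_some, D.equiv_some, Affine.Point.algEquiv_smul_def, Affine.Point.map_some]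
        simp [vcX, vcY, hu, hσr, h, hσt, f1, map_ofNat, D]
    · have h' := hpow hF _ h hC.s
      unfold nodeSign
      rw [if_pos (hsplit.mp h'.symm)]
  · refine ⟨-1, by norm_num, fun P => ?_, fun hF => ?_⟩
    · refine hsmul _ _ ?_
      rw [neg_one_zsmul, sub_neg_eq_add, ← inE0_neg (geomCurve_integralAt W A), neg_add']
      obtain ⟨Q, rfl⟩ := D.equiv.surjective P
      cases Q with
      | zero =>
        rw [← Affine.Point.zero_def, map_zero,
          show σ • (0 : GeomPoint W) = 0 from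
            (Affine.Point.map (W' := W.map (Int.castRingHom ℚ)) σ.toAlgHom).map_zero, neg_zero, sub_zero]
        exact inE0_zero _
      | some x y hxy =>
        convert hcomp hxy using 2
        rw [D.equiv_some, D.equiv_some, Affine.Point.algEquiv_smul_def, Affine.Point.map_some,
          Affine.Point.neg_some]
        simp only [Affine.Point.some.injEq]
        refine ⟨?_, ?_⟩
        · simp [vcX, hσr, hσu2, D]
        · show -σ (vcY C x y) - b₁ * σ (vcX C x) - b₃ = vcY C (σ x) (σ y)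
          have hσu : σ (C.u : Qbar) = -(C.u : Qbar) := by
            rw [hu, map_add, map_mul, map_ofNat, f1, h]; ring
          simp only [vcX, vcY, map_add, map_mul, map_pow, h, hσr, hσt, hσu]
          linear_combination -ht
    · have h' := hpow hF _ h (sub_mem (neg_mem hb₁A) hC.s)
      unfold nodeSign
      rw [if_neg fun hsp => ?_]
      rw [hsplit.mpr hsp, hr₀, FLTA.Galois.residue_eq_iff_sub_mem_nonunits,
        ValuationSubring.mem_nonunits_iff] at h'
      rw [show (-b₁ - C.s) - C.s = -(C.u : Qbar) by rw [hu]; ring, Valuation.map_neg, hC.u] at h'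
      exact lt_irrefl _ h'

/-- The decomposition group acts on `p`-power torsion modulo the kernel of reduction by a sign. -/
theorem exists_sign_E1 {σ : Γ} (hσ : σ ∈ A.decompositionSubgroup ℚ) :
    ∃ s : ℤ, s ^ 2 = 1 ∧
      (∀ (n : ℕ) (P : GeomPoint W), p ^ n • P = 0 → σ • P - s • P ∈ E1Z W A) ∧
      (A.IsFrobeniusAt σ p → s = nodeSign W p) := by
  obtain ⟨s, hs2, hs, hF⟩ := exists_sign hp hA hΔ hΔp hc₄ hσ
  have key : ∀ (n : ℕ) (Q : GeomPoint W), Q ∈ E0Z W A → p ^ n • Q ∈ E1Z W A → Q ∈ E1Z W A := by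
    intro n
    induction n with
    | zero => intro Q _ h; simpa using h
    | succ n ih =>
      intro Q hQ h
      refine mem_E1Z_of_mult hp hA hΔ hΔp hc₄ hQ (ih _ (nsmul_mem hQ p) ?_)
      rwa [smul_smul, ← pow_succ]
  refine ⟨s, hs2, fun n P hP => key n _ (hs P) ?_, hF⟩
  have h1 : p ^ n • (σ • P) = σ • (p ^ n • P) :=
    ((Affine.Point.map (W' := W.map (Int.castRingHom ℚ)) σ.toAlgHom).map_nsmul _ P).symm
  rw [nsmul_sub, h1, smul_comm (p ^ n) s P, hP, smul_zero, sub_zero,
    show σ • (0 : GeomPoint W) = 0 from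
      (Affine.Point.map (W' := W.map (Int.castRingHom ℚ)) σ.toAlgHom).map_zero]
  exact zero_mem _

end FLTA.EllTate
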