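import Fermat.Agent.EllTate.Det
import Fermat.Agent.EllTate.OrdSign
import Fermat.Agent.LevelLowering.LocalCurveLine
import Fermat.Agent.Galois.Cyclotomic
import Fermat.Prelude.Def_GaloisRep_StrictOrdinary

/-!
# The Tate module is strictly ordinary at an odd multiplicative prime

The line consists of the compatible systems in the kernel of reduction; the decomposition group
acts on the quotient through a sign, which at Frobenius is the sign of the reduction.
-/

set_option autoImplicit false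

open scoped Classical
open WeierstrassCurve
open scoped WeierstrassCurve.Affine

noncomputable section

namespace FLTA.EllTate

open FLTA.EllReduction

local notation "Qbar" => AlgebraicClosure ℚ
local notation "Γ" => AlgebraicClosure ℚ ≃ₐ[ℚ] AlgebraicClosure ℚ

attribute [local instance 10000] AlgebraicClosure.instAlgebra

variable {W : WeierstrassCurve ℤ} {p : ℕ} [Fact p.Prime]

/-- Compatible systems in the kernel of reduction. -/
def lineE1 (W : WeierstrassCurve ℤ) (p : ℕ) [Fact p.Prime] (A : ValuationSubring Qbar) :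
    Submodule ℤ_[p] (TateSeq (GeomPoint W) p) where
  carrier := {f | ∀ n, TateSeq.comp n f ∈ E1Z W A}
  add_mem' hf hg n := by rw [map_add]; exact add_mem (hf n) (hg n)
  zero_mem' n := by rw [map_zero]; exact zero_mem _
  smul_mem' x f hf n := by rw [TateSeq.comp_smul]; exact nsmul_mem (hf n) _

variable {A : ValuationSubring Qbar} (hA : A.LiesOverPrime p) (hΔ : W.Δ ≠ 0) (hp2 : p ≠ 2)
  (hΔp : (p : ℤ) ∣ W.Δ) (hc₄ : ¬ (p : ℤ) ∣ W.c₄)

include hA hΔ hp2 hΔp hc₄

/-- There are points of every `p`-power order in the kernel of reduction. -/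
lemma exists_addOrderOf_E1 (n : ℕ) : ∃ Y ∈ E1Z W A, addOrderOf Y = p ^ n := by
  have hp : p.Prime := Fact.out
  obtain ⟨w, hw⟩ := FLTA.LevelLowering.exists_ratVal hA
  obtain ⟨⟨T, hT, hpT, hmem⟩, -, -⟩ :=
    FLTA.LevelLowering.torsion_shape_curve W hΔ hp2 (.inr ⟨hΔp, hc₄⟩) hw
  obtain ⟨ι, hι, hc⟩ := FLTA.Galois.exists_inertia_cycloExp p hA (-1)
  refine FLTA.Mazur.exists_mem_E1Z_atP hp hA hΔ (.inr hc₄) hι hpT (fun h => hT ?_) n
  have hTm : T ∈ Submodule.torsionBy ℤ (GeomPoint W) (p : ℤ) :=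
    (Submodule.mem_torsionBy_iff _ _).mpr (by rwa [natCast_zsmul])
  have h1 := congrArg Subtype.val (FLTA.LevelLowering.smul_eq_cyclo_of_mem_curveLine hΔ hp2
    (.inr ⟨hΔp, hc₄⟩) hA hι (T := ⟨T, hTm⟩) hmem)
  have h2 : (ExtCitation.cycloExp p ι) • T = T := h1.symm.trans h
  have h3 : (ExtCitation.cycloExp p ι + 1) • T = 0 := by
    have hdvd : p ∣ ExtCitation.cycloExp p ι + 1 := by
      rw [← ZMod.natCast_eq_zero_iff, Nat.cast_add, hc, Nat.cast_one, Units.val_neg, Units.val_one,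
        neg_add_cancel]
    obtain ⟨c, hc'⟩ := hdvd
    rw [hc', mul_comm, mul_smul, hpT]
    exact nsmul_zero c
  rw [add_smul, h2, one_smul, ← two_nsmul] at h3
  rcases (Nat.dvd_prime hp).mp (addOrderOf_dvd_iff_nsmul_eq_zero.mpr hpT) with h4 | h4
  · exact AddMonoid.addOrderOf_eq_one_iff.mp h4
  · exact absurd ((Nat.prime_dvd_prime_iff_eq hp Nat.prime_two).mp
      (h4 ▸ addOrderOf_dvd_iff_nsmul_eq_zero.mpr h3)) hp2

/-- The `p ^ n`-torsion of the kernel of reduction is cyclic. -/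
lemma mem_zmultiples_E1 {n : ℕ} {X Y : GeomPoint W} (hX : X ∈ E1Z W A) (hY : Y ∈ E1Z W A)
    (hX0 : p ^ n • X = 0) (hY0 : addOrderOf Y = p ^ n) : X ∈ AddSubgroup.zmultiples Y := by
  obtain ⟨w, hw⟩ := FLTA.LevelLowering.exists_ratVal hA
  obtain ⟨-, ⟨T', hpT', hmem'⟩, -⟩ :=
    FLTA.LevelLowering.torsion_shape_curve W hΔ hp2 (.inr ⟨hΔp, hc₄⟩) hw
  exact FLTA.Mazur.mem_zmultiples_of_E1Z_pow Fact.out hΔ hpT' hmem' hX hY hX0 hY0

/-- A generator of the line. -/
lemma exists_generator :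
    ∃ f : TateSeq (GeomPoint W) p, f ∈ lineE1 W p A ∧
      ∀ n, addOrderOf (TateSeq.comp n f) = p ^ n := by
  have hp : p.Prime := Fact.out
  have hstep : ∀ (n : ℕ) (Y : GeomPoint W), (Y ∈ E1Z W A ∧ addOrderOf Y = p ^ n) →
      ∃ X : GeomPoint W, (X ∈ E1Z W A ∧ addOrderOf X = p ^ (n + 1)) ∧ p • X = Y := by
    rintro n Y ⟨hY, hY0⟩
    obtain ⟨Z, hZ, hZ0⟩ := exists_addOrderOf_E1 hA hΔ hp2 hΔp hc₄ (n + 1)
    cases n with
    | zero =>
      refine ⟨Z, ⟨hZ, hZ0⟩, ?_⟩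
      rw [pow_zero, AddMonoid.addOrderOf_eq_one_iff] at hY0
      rw [hY0, ← addOrderOf_dvd_iff_nsmul_eq_zero, hZ0, pow_one]
    | succ n =>
      have hpZ : addOrderOf (p • Z) = p ^ (n + 1) := by
        rw [addOrderOf_nsmul' _ hp.ne_zero, hZ0,
          Nat.gcd_eq_right (dvd_pow_self p (Nat.succ_ne_zero _)), pow_succ,
          Nat.mul_div_cancel _ hp.pos]
      obtain ⟨k, hk⟩ := AddSubgroup.mem_zmultiples_iff.mp (mem_zmultiples_E1 hA hΔ hp2 hΔp hc₄ hY
        (nsmul_mem hZ p) (hY0 ▸ addOrderOf_nsmul_eq_zero Y) hpZ)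
      have hX : p • (k • Z) = Y := by rw [smul_comm, hk]
      refine ⟨k • Z, ⟨zsmul_mem hZ k, addOrderOf_eq_prime_pow (p := p) (n := n + 1) ?_ ?_⟩, hX⟩
      · rw [pow_succ, mul_smul, hX, ← addOrderOf_dvd_iff_nsmul_eq_zero, hY0,
          Nat.pow_dvd_pow_iff_le_right hp.one_lt]
        omega
      · rw [pow_succ, mul_smul, hX, ← hY0, addOrderOf_nsmul_eq_zero]
  choose g hg hgp using hstep
  let F : ∀ n : ℕ, {Y : GeomPoint W // Y ∈ E1Z W A ∧ addOrderOf Y = p ^ n} := fun n =>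
    Nat.rec ⟨0, zero_mem _, by simp⟩ (fun m Y => ⟨g m Y.1 Y.2, hg m Y.1 Y.2⟩) n
  refine ⟨⟨fun n => (F n).1, fun n => ⟨?_, hgp n _ (F n).2⟩⟩, fun n => (F n).2.1,
    fun n => (F n).2.2⟩
  rw [← (F n).2.2]
  exact addOrderOf_nsmul_eq_zero _

lemma lineE1_eq_span {f : TateSeq (GeomPoint W) p} (hf : f ∈ lineE1 W p A)
    (hord : ∀ n, addOrderOf (TateSeq.comp n f) = p ^ n) :
    lineE1 W p A = Submodule.span ℤ_[p] {f} := by
  refine le_antisymm (fun g hg => ?_) ((Submodule.span_singleton_le_iff_mem f _).mpr hf)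
  have hk : ∀ n, ∃ a : ZMod (p ^ n), a.val • TateSeq.comp n f = TateSeq.comp n g := fun n => by
    haveI := neZero_pow (p := p) n
    obtain ⟨k, hk⟩ := AddSubgroup.mem_zmultiples_iff.mp (mem_zmultiples_E1 hA hΔ hp2 hΔp hc₄ (hg n)
      (hf n) (TateSeq.pow_nsmul_comp g n) (hord n))
    refine ⟨(k : ZMod (p ^ n)), ?_⟩
    rw [← hk, ← natCast_zsmul, ZMod.val_intCast]
    rw [← mod_addOrderOf_zsmul (TateSeq.comp n f) k, hord n]
  choose a ha using hk
  have hcompat : ∀ n, ((a (n + 1)).val : ZMod (p ^ n)) = a n := fun n => by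
    haveI := neZero_pow (p := p) n
    have h := congrArg (p • ·) (ha (n + 1))
    rw [smul_comm, TateSeq.nsmul_comp_succ, TateSeq.nsmul_comp_succ, ← ha n,
      nsmul_eq_nsmul_iff_modEq, hord n, ← ZMod.natCast_eq_natCast_iff] at h
    rw [h, ZMod.natCast_zmod_val]
  obtain ⟨x, hx⟩ := exists_padic_of_compat hcompat
  refine Submodule.mem_span_singleton.mpr ⟨x, TateSeq.ext' fun n => ?_⟩
  rw [TateSeq.comp_smul, zsmulAt, hx n, ha n]

omit hA hp2 hΔp hc₄ in
/-- A system of full order extends to a basis. -/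
lemma exists_basis_zero_eq {f : (tateRep W hΔ p).V} (hf : TateSeq.comp 1 f ≠ 0) :
    ∃ b : Module.Basis (Fin 2) ℤ_[p] (tateRep W hΔ p).V, b 0 = f := by
  let e := tateBasis W hΔ p
  obtain ⟨i, hi⟩ : ∃ i, IsUnit (e.repr f i) := by
    by_contra hcon
    push Not at hcon
    refine hf (TateSeq.comp_eq_zero_of_mem ?_)
    rw [pow_one]
    have : ∑ j, e.repr f j • e j ∈
        Ideal.span {(p : ℤ_[p])} • (⊤ : Submodule ℤ_[p] (tateRep W hΔ p).V) :=
      Submodule.sum_mem _ fun j _ => Submodule.smul_mem_smul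
        (by rw [← PadicInt.maximalIdeal_eq_span_p]
            exact (IsLocalRing.mem_maximalIdeal _).mpr (hcon j)) Submodule.mem_top
    rwa [e.sum_repr] at this
  let j : Fin 2 := if i = 0 then 1 else 0
  have hdet : IsUnit (e.det ![f, e j]) := by
    rw [Module.Basis.det_apply, Matrix.det_fin_two]
    simp only [Module.Basis.toMatrix_apply, Matrix.cons_val_zero, Matrix.cons_val_one,
      Module.Basis.repr_self, Finsupp.single_apply, j]
    fin_cases i <;> simpa using hi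
  obtain ⟨hli, hsp⟩ := (Module.Basis.is_basis_iff_det e).mpr hdet
  exact ⟨Module.Basis.mk hli hsp.ge, by simp⟩

/-- The line, the sign on the quotient and the congruence. -/
theorem exists_ordinaryLine (hirr : W.ModRepIsIrreducible p) :
    ∃ L : Submodule ℤ_[p] (tateRep W hΔ p).V,
      (∃ b : Module.Basis (Fin 2) ℤ_[p] (tateRep W hΔ p).V, L = ℤ_[p] ∙ b 0) ∧
      (∀ σ ∈ A.decompositionSubgroup ℚ, ∀ v ∈ L, (tateRep W hΔ p).ρ σ v ∈ L) ∧
      (∀ σ ∈ A.inertiaSubgroupIn ℚ, ∀ v, (tateRep W hΔ p).ρ σ v - v ∈ L) ∧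
      (∀ σ ∈ A.decompositionSubgroup ℚ, ∃ x z : ℤ_[p], z ^ 2 = 1 ∧
        (∀ w ∈ L, (tateRep W hΔ p).ρ σ w = x • w) ∧
        (∀ v, (tateRep W hΔ p).ρ σ v - z • v ∈ L) ∧
        (∀ (n a : ℕ), (∀ μ : Qbar, μ ^ p ^ n = 1 → σ μ = μ ^ a) →
          x - (a : ℤ_[p]) * z ∈ Ideal.span {((p ^ n : ℕ) : ℤ_[p])}) ∧
        (A.IsFrobeniusAt σ p → z = (nodeSign W p : ℤ_[p]))) := by
  have hp : p.Prime := Fact.out
  obtain ⟨f, hf, hord⟩ := exists_generator hA hΔ hp2 hΔp hc₄
  have hspan := lineE1_eq_span hA hΔ hp2 hΔp hc₄ hf hord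
  obtain ⟨b, hb⟩ := exists_basis_zero_eq (hΔ := hΔ) (f := f) fun h => hp.one_lt.ne (by
    have := hord 1
    rw [h, addOrderOf_zero, pow_one] at this
    exact this)
  have hD : ∀ σ ∈ A.decompositionSubgroup ℚ, ∀ v ∈ lineE1 W p A,
      (tateRep W hΔ p).ρ σ v ∈ lineE1 W p A := by
    intro σ hσ v hv n
    have h : TateSeq.comp n v ∈ E1Z W A := hv n
    show σ • TateSeq.comp n v ∈ E1Z W A
    rw [mem_E1Z] at h ⊢
    generalize TateSeq.comp n v = P at h
    cases P with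
    | zero => exact trivial
    | some x y hxy =>
      rw [Affine.Point.algEquiv_smul_def, Affine.Point.map_some]
      exact fun hx => h ((FLTA.Galois.mem_decompositionSubgroup_iff.mp hσ x).mp hx)
  refine ⟨lineE1 W p A, ⟨b, by rw [hb]; exact hspan⟩, hD, fun σ hσ => ?_, fun σ hσ => ?_⟩
  · show ∀ (v : TateSeq (GeomPoint W) p) (n : ℕ),
      TateSeq.comp n (tateAction W p σ v - v) ∈ E1Z W A
    intro v n
    rw [map_sub, comp_tateAction]
    exact FLTA.Mazur.smul_sub_mem_E1Z_atP hp hA hΔ (.inr hc₄) hσ (TateSeq.pow_nsmul_comp v n)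
  · obtain ⟨s, hs2, hs, hF⟩ := exists_sign_E1 hp hA hΔ hΔp hc₄ hσ
    obtain ⟨x, hx⟩ : ∃ x : ℤ_[p], x • f = tateAction W p σ f :=
      Submodule.mem_span_singleton.mp (hspan.le (hD σ hσ f hf))
    have hquot : ∀ v : TateSeq (GeomPoint W) p,
        tateAction W p σ v - (s : ℤ_[p]) • v ∈ lineE1 W p A := fun v n => by
      rw [map_sub, comp_tateAction, Int.cast_smul_eq_zsmul, map_zsmul]
      exact hs n _ (TateSeq.pow_nsmul_comp v n)
    have hz : (s : ℤ_[p]) ^ 2 = 1 := by rw [← Int.cast_pow, hs2, Int.cast_one]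
    have hxf : tateAction W p σ f = x • f := hx.symm
    have hline : ∀ w ∈ lineE1 W p A, tateAction W p σ w = x • w := by
      intro w hw
      obtain ⟨c, rfl⟩ := Submodule.mem_span_singleton.mp (hspan.le hw)
      exact (map_smul (tateAction W p σ) c f).trans ((congrArg (c • ·) hxf).trans (smul_comm c x f))
    have hdet : LinearMap.det ((tateRep W hΔ p).ρ σ) = x * s := by
      rw [← LinearMap.det_toMatrix b, Matrix.det_fin_two]
      obtain ⟨c, hc⟩ := Submodule.mem_span_singleton.mp (hspan.le (hquot (b 1)))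
      have e1 : (tateRep W hΔ p).ρ σ (b 1) = c • b 0 + (s : ℤ_[p]) • b 1 :=
        (sub_eq_iff_eq_add.mp hc.symm).trans (by rw [hb]; rfl)
      have e0 : (tateRep W hΔ p).ρ σ (b 0) = x • b 0 := by rw [hb]; exact hxf
      simp only [LinearMap.toMatrix_apply, e0, e1, map_add, map_smul, Module.Basis.repr_self]
      simp
    refine ⟨x, s, hz, hline, hquot, fun n a ha => ?_, fun hfr => by rw [hF hfr]⟩
    have h := Ideal.mul_mem_right (s : ℤ_[p]) _ ((detIsCyclotomic (hΔ := hΔ) hirr hp2).2 n σ a ha)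
    rw [hdet] at h
    convert h using 1
    linear_combination -x * hz

omit hA in
/-- The Tate module is strictly ordinary at an odd prime of multiplicative reduction. -/
theorem isStrictOrdinaryAt_tateRep (hirr : W.ModRepIsIrreducible p) :
    (tateRep W hΔ p).IsStrictOrdinaryAt p := by
  refine ⟨PadicInt.p_nonunit (p := p), fun P hP => ?_⟩
  obtain ⟨L, hb, hD, hI, hDz⟩ := exists_ordinaryLine hP hΔ hp2 hΔp hc₄ hirr
  refine ⟨L, hb, hD, hI, fun σ hσ => ?_⟩
  obtain ⟨x, z, -, h1, h2, h3, -⟩ := hDz σ hσ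
  exact ⟨x, z, h1, h2, h3⟩

end FLTA.EllTate
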