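import Fermat.Agent.EllTate.Det
import Fermat.Agent.EllTate.OrdSign
import Mathlib.LinearAlgebra.Matrix.NonsingularInverse

/-!
# Frobenius at a multiplicative prime away from `p`

The trace is the sign of the reduction times `q + 1`: Frobenius minus the sign moves the Tate
module into the systems with nonsingular reduction, which form a proper submodule.
-/

set_option autoImplicit false

open scoped Classical
open WeierstrassCurve
open scoped WeierstrassCurve.Affine

noncomputable section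

namespace FLTA.EllTate

open FLTA.EllReduction

local notation "Qbar" => AlgebraicClosure ℚ
local notation "Γ" => AlgebraicClosure ℚ ≃ₐ[ℚ] AlgebraicClosure ℚ

attribute [local instance 10000] AlgebraicClosure.instAlgebra

variable {W : WeierstrassCurve ℤ} {p q : ℕ} [Fact p.Prime] {A : ValuationSubring Qbar}
  (hΔ : W.Δ ≠ 0) (hq : q.Prime) (hqp : q ≠ p) (hA : A.LiesOverPrime q) (hΔq : (q : ℤ) ∣ W.Δ)
  (hc₄ : ¬ (q : ℤ) ∣ W.c₄)

include hΔ hq hqp hA hΔq hc₄

/-- Some point of order dividing `p` does not have nonsingular reduction at a multiplicative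
place away from `p`. -/
lemma exists_torsion_not_mem_E0 : ∃ P : GeomPoint W, p • P = 0 ∧ P ∉ E0Z W A := by
  have hp : p.Prime := Fact.out
  by_contra hcon
  push Not at hcon
  have hqp' : ¬ q ∣ p := fun h => hqp ((Nat.prime_dvd_prime_iff_eq hq hp).mp h)
  have hcard := natCard_pow_torsion W hΔ p 1
  rw [pow_one] at hcard
  have hfin : Finite {x : GeomPoint W // p • x = 0} := Nat.finite_of_card_ne_zero (by
    rw [hcard]; exact pow_ne_zero 2 hp.ne_zero)
  obtain ⟨P, hP, hP0⟩ : ∃ P : GeomPoint W, p • P = 0 ∧ P ≠ 0 := by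
    by_contra hc
    push Not at hc
    haveI : Subsingleton {x : GeomPoint W // p • x = 0} :=
      ⟨fun x y => Subtype.ext ((hc x.1 x.2).trans (hc y.1 y.2).symm)⟩
    have h1 := Nat.card_of_subsingleton (⟨0, nsmul_zero _⟩ : {x : GeomPoint W // p • x = 0})
    rw [hcard] at h1
    nlinarith [hp.two_le]
  have hP1 : P ∉ E1Z W A := fun h => hP0 (eq_zero_of_mem_E1Z hq hA hqp' h hP)
  have hsurj : Function.Surjective (fun k : Fin p => (⟨(k : ℕ) • P, by
      rw [smul_comm, hP]; exact nsmul_zero _⟩ : {x : GeomPoint W // p • x = 0})) := fun X => by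
    obtain ⟨k, hk⟩ := exists_zsmul_sub_mem_E1Z hq hA hΔ hΔq hc₄ hp (hcon P hP) (hcon X.1 X.2) hP
      X.2 hP1
    refine ⟨⟨k % p, Nat.mod_lt _ hp.pos⟩, Subtype.ext ?_⟩
    show (k % p) • P = X.1
    rw [mod_nsmul_of_nsmul_eq_zero hP k]
    refine (sub_eq_zero.mp (eq_zero_of_mem_E1Z hq hA hqp' hk ?_)).symm
    rw [nsmul_sub, X.2, smul_comm, hP, nsmul_zero, sub_zero]
  have h := Nat.card_le_card_of_surjective _ hsurj
  rw [hcard, Nat.card_eq_fintype_card, Fintype.card_fin] at h
  nlinarith [hp.two_le]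

/-- The trace of Frobenius at a multiplicative prime. -/
theorem trace_frobenius_of_mult (hirr : W.ModRepIsIrreducible p) (hp2 : p ≠ 2) {σ : Γ}
    (hσ : A.IsFrobeniusAt σ q) :
    (tateRep W hΔ p).trace σ = (nodeSign W q : ℤ_[p]) * ((q : ℤ_[p]) + 1) := by
  have hp : p.Prime := Fact.out
  obtain ⟨s, hs2, hs, hF⟩ := exists_sign hq hA hΔ hΔq hc₄ hσ.mem_decompositionSubgroup
  rw [← hF hσ]
  set M := tateMat W hΔ p σ with hM
  set N : Matrix (Fin 2) (Fin 2) ℤ_[p] := M - (s : ℤ_[p]) • 1 with hN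
  have hdetM : M.det = (q : ℤ_[p]) := by
    refine PadicInt.ext_of_toZModPow.mp fun n => ?_
    rcases Nat.eq_zero_or_pos n with rfl | hn
    · exact Subsingleton.elim (α := ZMod 1) _ _
    · rw [hM, toZModPow_det hirr hp2 hn.ne', map_natCast]
      exact @cyclo_eq _ (neZero_pow n) σ q fun μ hμ =>
        FLTA.Galois.frobenius_apply_rootOfUnity hq hA hσ
          (fun h => hqp ((Nat.prime_dvd_prime_iff_eq hq hp).mp (hq.dvd_of_dvd_pow h))) hμ
  let g : TateSeq (GeomPoint W) p →ₗ[ℤ_[p]] TateSeq (GeomPoint W) p :=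
    tateAction W p σ - (s : ℤ_[p]) • 1
  have hg : ∀ (v : TateSeq (GeomPoint W) p) n, TateSeq.comp n (g v) ∈ E0Z W A := fun v n => by
    show TateSeq.comp n (tateAction W p σ v - (s : ℤ_[p]) • v) ∈ E0Z W A
    rw [map_sub, comp_tateAction, Int.cast_smul_eq_zsmul, map_zsmul]
    exact hs _
  have hdet0 : N.det = 0 := by
    by_contra hne
    obtain ⟨P, hP, hP0⟩ := exists_torsion_not_mem_E0 hΔ hq hqp hA hΔq hc₄
    obtain ⟨f, hf⟩ := exists_seq (exists_nsmul_prime_eq W hΔ p) hP
    obtain ⟨k, u, hu⟩ : ∃ (k : ℕ) (u : ℤ_[p]ˣ), N.det = u * (p : ℤ_[p]) ^ k :=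
      ⟨_, PadicInt.unitCoeff hne, PadicInt.unitCoeff_spec hne⟩
    -- `p ^ k` is in the image of `g`
    let e : Module.Basis (Fin 2) ℤ_[p] (TateSeq (GeomPoint W) p) := tateBasis W hΔ p
    have hgN : LinearMap.toMatrixAlgEquiv e g = N := by
      show LinearMap.toMatrixAlgEquiv e (tateAction W p σ - (s : ℤ_[p]) • 1) = N
      rw [map_sub, map_smul, map_one]
      rfl
    let h' : TateSeq (GeomPoint W) p →ₗ[ℤ_[p]] TateSeq (GeomPoint W) p :=
      (↑u⁻¹ : ℤ_[p]) • (LinearMap.toMatrixAlgEquiv e).symm N.adjugate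
    have hgh : g * h' = ((p : ℤ_[p]) ^ k) • 1 := by
      refine (LinearMap.toMatrixAlgEquiv e).injective ?_
      refine (map_mul (LinearMap.toMatrixAlgEquiv e) g h').trans ?_
      rw [hgN]
      show N * LinearMap.toMatrixAlgEquiv e
        ((↑u⁻¹ : ℤ_[p]) • (LinearMap.toMatrixAlgEquiv e).symm N.adjugate) = _
      rw [map_smul, AlgEquiv.apply_symm_apply, Matrix.mul_smul, Matrix.mul_adjugate, hu, smul_smul,
        ← mul_assoc, Units.inv_mul, one_mul]
      exact ((map_smul _ _ _).trans (congrArg _ (map_one _))).symm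
    let f' : TateSeq (GeomPoint W) p := f
    have h1 : g (h' f') = ((p ^ k : ℕ) : ℤ_[p]) • f' := by
      rw [Nat.cast_pow]; exact LinearMap.congr_fun hgh f'
    refine hP0 ?_
    have h2 := hg (h' f') (1 + k)
    rwa [h1, TateSeq.comp_natCast_smul, TateSeq.pow_nsmul_comp_add, hf] at h2
  rw [hN, Matrix.det_fin_two] at hdet0
  rw [trace_eq_trace_tateMat, ← hM, Matrix.trace_fin_two]
  rw [Matrix.det_fin_two] at hdetM
  simp only [Matrix.sub_apply, Matrix.smul_apply, smul_eq_mul] at hdet0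
  simp at hdet0
  have hs' : (s : ℤ_[p]) ^ 2 = 1 := by rw [← Int.cast_pow, hs2, Int.cast_one]
  linear_combination (-(s : ℤ_[p])) * hdet0 + (s : ℤ_[p]) * hdetM +
    ((s : ℤ_[p]) - M 0 0 - M 1 1) * hs'

end FLTA.EllTate
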